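/-
IHARA [B] (B4) (lead): **the unsquared Frobenius relation on the toric part — interface**.

Setting as in `Lib/T2/F/Defs.lean`: level `N' q`, `q` prime, `q ∤ N'`, `A | q` a valuation subring
of `ℚ̄`, `φ` a Frobenius lift at `A`, `m` prime to `q`, `y ∈ tWsub ℚ̄ (N' q) m` a Kummer function
such that both `y` and `w_q y` are in `ℚ̄^× · (1 + 𝔪_A)` modulo `m`-th powers (the toric part).
`T2fP4K` says `φ² y ≡ y ^ (q²)` modulo `m`-th powers.  Here:

* `IhbfAt N' q h`: **`φ y · (w_q y) ^ q` is an `m`-th power** (on the character group of the torus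
  `w_q` acts as `-Frob`, so `φ = -q w_q` on the toric part of `J₀(N' q)[m]`);
* `IhbfGood`: the statement at the levels with `4 ∣ N'` or `9 ∣ N'`; `IhbfAll`: at all levels;
* `IhbfExport`: the export of T2-C in the shape needed here: as `T2fExport`, with, instead of the
  compatibility (FR) of the node evaluation with `Fr²`, the map `ι` on the points over the nodes
  induced by `(r₁, r₂) ↦ (Fr r₂, Fr r₁)` (the reduction of `φ ∘ w_q`) and the fact that the blocks
  of `ev S₁` are contained in the `{i, ι i}`.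

Plan: `ihbf_export : IhbfExport` (`Export.lean`), `ihbf_good_of_export : IhbfExport → IhbfGood`
(`Main.lean`, with the abstract core `ihbf_core` of `Core.lean`), `ihbf_all_of_good` (`Level.lean`).
-/
import Mathlib
import Fermat.Agent.Lib.T2.F.ToricDefs

set_option autoImplicit false
set_option linter.unusedSectionVars false
set_option linter.unusedVariables false
set_option linter.style.haveILetI false

namespace Fermat.Agent.Ihara

open ModularCurve Module AlgebraicCurve IntermediateField Fermat.Agent.Curve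
  Fermat.Agent.T1 Fermat.Agent.TW Fermat.Agent.S24Lib Fermat.Agent.T2

local notation "Kbar" => AlgebraicClosure ℚ
local notation "GQ" => (AlgebraicClosure ℚ ≃ₐ[ℚ] AlgebraicClosure ℚ)

attribute [local instance] t2i_dvr t2i_isAlgClosed t2i_charP t2i_fact

/-- **the unsquared Frobenius relation on the toric part, at the level `N' q`**:
`φ y · (w_q y) ^ q = t ^ m` -/
def IhbfAt (N' q : ℕ) [NeZero N'] [Fact q.Prime] (h : ¬ q ∣ N') : Prop :=
  ∀ A : ValuationSubring Kbar,
    A.LiesOverPrime q → ∀ φ : GQ, A.IsFrobeniusAt φ q → ∀ m : ℕ, Nat.Coprime m q → m ≠ 0 →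
      ∀ y : (↥(modularFunctionFieldBar (N' * q)))ˣ, y ∈ tWsub Kbar (N' * q) m →
        (∃ s : (↥(modularFunctionFieldBar (N' * q)))ˣ, T2fInf (N' * q) A (y * s ^ m)) →
        (∃ s : (↥(modularFunctionFieldBar (N' * q)))ˣ,
          T2fInf (N' * q) A (Units.map ((t2w Kbar N' q h :
            ↥(modularFunctionFieldBar (N' * q)) ≃ₐ[Kbar] ↥(modularFunctionFieldBar (N' * q))) :
            ↥(modularFunctionFieldBar (N' * q)) →* ↥(modularFunctionFieldBar (N' * q))) y
              * s ^ m)) →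
        ∃ t : (↥(modularFunctionFieldBar (N' * q)))ˣ,
          tkrSig (N' * q) φ y * (Units.map ((t2w Kbar N' q h :
            ↥(modularFunctionFieldBar (N' * q)) ≃ₐ[Kbar] ↥(modularFunctionFieldBar (N' * q))) :
            ↥(modularFunctionFieldBar (N' * q)) →* ↥(modularFunctionFieldBar (N' * q))) y) ^ q
            = t ^ m

/-- the relation at the levels with `4 ∣ N'` or `9 ∣ N'` -/
def IhbfGood : Prop :=
  ∀ (N' q : ℕ) [NeZero N'] [Fact q.Prime] (h : ¬ q ∣ N'), (4 ∣ N' ∨ 9 ∣ N') → IhbfAt N' q h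

/-- the relation at all levels -/
def IhbfAll : Prop :=
  ∀ (N' q : ℕ) [NeZero N'] [Fact q.Prime] (h : ¬ q ∣ N'), IhbfAt N' q h

/-- **the export of T2-C in the shape needed for the unsquared relation**: as `T2fExport`, with
the swap compatibility (SW) of the node evaluation and the block structure (BL) -/
def IhbfExport : Prop :=
  ∀ (𝔓 : FFPlace) (N' : ℕ) [NeZero N'] (h : ¬ 𝔓.p ∣ N'), (4 ∣ N' ∨ 9 ∣ N') →
    ∀ m : ℕ, Nat.Coprime m 𝔓.p →
      ∃ Q : ℕ, 2 ≤ Q ∧
        ∀ (H : Subgroup 𝔓.I) [H.FiniteIndex] [H.Normal],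
          ∃ (n : ℕ) (su : T2Setup (t2iBase2Fix 𝔓 H N' h) (Fin n)) (ι : Fin n → Fin n),
            su.m = m ∧ su.x = t2gaX 𝔓 H N' h Q ∧
            (su.n : ℤ) = finrank ↥Kbar⟮tbPhiF 𝔓 (N' * 𝔓.p) H su.x⟯
              ↥(modularFunctionFieldBar (N' * 𝔓.p)) ∧
            su.c = 1 - CurveP.genusR Kbar ↥(modularFunctionFieldBar (N' * 𝔓.p)) ∧
            (∀ r r' : ↥(t2R (k := IsLocalRing.ResidueField ↥𝔓.P) su.xb),
              (((r' : ↥(tbBarF 𝔓 N') × ↥(tbBarF 𝔓 N')).1 : ↥(tbBarF 𝔓 N')) :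
                  LaurentSeries (IsLocalRing.ResidueField ↥𝔓.P)) =
                coeffMap (frobenius (IsLocalRing.ResidueField ↥𝔓.P) 𝔓.p)
                  (((r : ↥(tbBarF 𝔓 N') × ↥(tbBarF 𝔓 N')).2 : ↥(tbBarF 𝔓 N')) :
                    LaurentSeries (IsLocalRing.ResidueField ↥𝔓.P)) →
              (((r' : ↥(tbBarF 𝔓 N') × ↥(tbBarF 𝔓 N')).2 : ↥(tbBarF 𝔓 N')) :
                  LaurentSeries (IsLocalRing.ResidueField ↥𝔓.P)) =
                coeffMap (frobenius (IsLocalRing.ResidueField ↥𝔓.P) 𝔓.p)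
                  (((r : ↥(tbBarF 𝔓 N') × ↥(tbBarF 𝔓 N')).1 : ↥(tbBarF 𝔓 N')) :
                    LaurentSeries (IsLocalRing.ResidueField ↥𝔓.P)) →
              ∀ i, su.ev r' i = su.ev r (ι i) ^ 𝔓.p) ∧
            ∀ i j : Fin n,
              (∀ r : ↥(t2R (k := IsLocalRing.ResidueField ↥𝔓.P) su.xb),
                (r : ↥(tbBarF 𝔓 N') × ↥(tbBarF 𝔓 N')) ∈ su.S1 → su.ev r i = su.ev r j) →
              j = i ∨ (j = ι i ∧ i = ι j)

end Fermat.Agent.Ihara
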