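/-
IHARA [B] (B4) (lead): **the node data with the action of the Frobenius on the points**.

Setting of `Lib/T2/Inst/NodeAlg.lean` / `Lib/T2/F/NodeKer.lean`, with the single Frobenius:
`k` algebraically closed, `E / k` a function field with separating transcendental generator `jb`,
`ψ₁ : E →+* E` with `ψ₁ k ⊆ k`, `ψ₁ jb = jb`, `Θ₁ : E →ₐ[k] E` with `Θ₁ f = (ψ₁ f) ^ Q₁`, `2 ≤ Q₁`
(application: `Θ₁ = Φ`, `ψ₁` = coefficientwise `Frob⁻¹`, `Q₁ = q`), `R' = IntCl_E(k[jb])`.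
The evaluation map `ev' : R' → k^n` of `t2ni_exists_fin` (for `Θ = Θ₁²`) is onto with kernel the
ideal generated by the `f - Θ f`; hence `Θ₁` induces a map `π` on the points.

* `ihbf_pi_algHom`: a `k`-algebra homomorphism `k^n → k` is a coordinate;
* `ihbf_exists_fin`: `ev'`, `π` with `ev' (Θ₁ f) s = ev' f (π s)`, `π ∘ π = id`,
  `ψ₁ g' = g → ev' g' s = ev' g (π s) ^ Q₁`;
* `ihbf_exists_prod`: the node data on `t2R (a, b)` with `ι (s, 1) = (π s, 2)`, `ι (s, 2) = (π s, 1)`: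
  the kernel of `ev` lies in every subalgebra `S₁ ∋ (f, Θ₁ f), (Θ₁ f, f)`; (SW)
  `ψ₁ r'.1 = r.2 → ψ₁ r'.2 = r.1 → ev r' i = ev r (ι i) ^ Q₁`; (BL) the elements `(f, Θ₁ f)`
  separate `i` from every `j ∉ {i, ι i}`;
* `ihbf_node_prod`: the same for the modular function field in characteristic `q`.
-/
import Fermat.Agent.Lib.T2.F.NodeKer

set_option autoImplicit false
set_option linter.unusedSectionVars false
set_option linter.style.haveILetI false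

noncomputable section

namespace Fermat.Agent.Ihara

open Polynomial IntermediateField ModularCurve HahnSeries Fermat.Agent.T1 Fermat.Agent.T2

/-- a `k`-algebra homomorphism `k^n → k` is a coordinate -/
theorem ihbf_pi_algHom {k : Type*} [Field k] {n : ℕ} (χ : (Fin n → k) →ₐ[k] k) :
    ∃ j : Fin n, ∀ f : Fin n → k, χ f = f j := by
  classical
  have h1 : (∑ j : Fin n, Pi.single j (1 : k) : Fin n → k) = 1 := by
    funext i
    simp [Finset.sum_apply, Pi.single_apply]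
  have h2 : ∑ j : Fin n, χ (Pi.single j (1 : k)) = 1 := by
    rw [← map_sum, h1, map_one]
  obtain ⟨j, hj⟩ : ∃ j : Fin n, χ (Pi.single j (1 : k)) ≠ 0 := by
    by_contra hall
    push Not at hall
    rw [Finset.sum_eq_zero (fun j _ => hall j)] at h2
    exact zero_ne_one h2
  refine ⟨j, fun f => ?_⟩
  have h3 : f * Pi.single j (1 : k) = f j • Pi.single j (1 : k) := by
    funext i
    by_cases hij : i = j
    · subst hij
      simp
    · simp [hij]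
  have h4 := congrArg χ h3
  rw [map_mul, map_smul, smul_eq_mul] at h4
  exact mul_right_cancel₀ hj h4

section ND

universe u

variable {k : Type*} {E : Type u} [Field k] [Field E] [Algebra k E] (jb : E)
  (Q₁ : ℕ) (ψ₁ : E →+* E) (hψ₁k : ∀ c : k, ∃ c' : k, ψ₁ (algebraMap k E c) = algebraMap k E c')
  (hψ₁j : ψ₁ jb = jb) (Θ₁ : E →ₐ[k] E) (hΘ₁ : ∀ f, Θ₁ f = ψ₁ f ^ Q₁)

include hψ₁k in
theorem ihbf_psi_sq_k (c : k) :
    ∃ c' : k, (ψ₁.comp ψ₁) (algebraMap k E c) = algebraMap k E c' := by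
  obtain ⟨c₁, h₁⟩ := hψ₁k c
  obtain ⟨c₂, h₂⟩ := hψ₁k c₁
  exact ⟨c₂, by rw [RingHom.comp_apply, h₁, h₂]⟩

include hψ₁j in
theorem ihbf_psi_sq_j : (ψ₁.comp ψ₁) jb = jb := by
  rw [RingHom.comp_apply, hψ₁j, hψ₁j]

include hΘ₁ in
theorem ihbf_theta_sq (f : E) : (Θ₁.comp Θ₁) f = (ψ₁.comp ψ₁) f ^ (Q₁ ^ 2) := by
  rw [AlgHom.comp_apply, hΘ₁ f, map_pow, hΘ₁, ← pow_mul, sq]
  rfl

variable (hjb : Transcendental k jb) [hfd : FiniteDimensional ↥k⟮jb⟯ E]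
  [hsep : Algebra.IsSeparable ↥k⟮jb⟯ E] [IsAlgClosed k]

include hψ₁k hψ₁j hΘ₁ hjb hfd hsep in
/-- **the node data on one component, with the action `π` of `Θ₁` on the points** -/
theorem ihbf_exists_fin (hQ₁ : 2 ≤ Q₁) :
    ∃ (n : ℕ) (ev' : ↥(t2R (k := k) jb) →ₐ[k] (Fin n → k)) (π : Fin n → Fin n),
      Function.Surjective ev' ∧
      (∀ r, ev' r = 0 ↔ r ∈ t2niI jb (Q₁ ^ 2) (ψ₁.comp ψ₁) (ihbf_psi_sq_k ψ₁ hψ₁k)
        (ihbf_psi_sq_j jb ψ₁ hψ₁j) (Θ₁.comp Θ₁) (ihbf_theta_sq Q₁ ψ₁ Θ₁ hΘ₁)) ∧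
      (∀ (f : E) (hf : f ∈ t2R (k := k) jb) (s : Fin n),
        ev' ⟨Θ₁ f, t2ni_map_mem jb Q₁ ψ₁ hψ₁k hψ₁j Θ₁ hΘ₁ hf⟩ s = ev' ⟨f, hf⟩ (π s)) ∧
      (∀ s, π (π s) = s) ∧
      ∀ (g g' : E) (hg : g ∈ t2R (k := k) jb) (hg' : g' ∈ t2R (k := k) jb), ψ₁ g' = g →
        ∀ s, ev' ⟨g', hg'⟩ s = ev' ⟨g, hg⟩ (π s) ^ Q₁ := by
  classical
  have hQ : 2 ≤ Q₁ ^ 2 := by nlinarith
  obtain ⟨n, ev', hsurj, hker, -⟩ := t2ni_exists_fin (k := k) jb (Q₁ ^ 2) (ψ₁.comp ψ₁)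
    (ihbf_psi_sq_k ψ₁ hψ₁k) (ihbf_psi_sq_j jb ψ₁ hψ₁j) (Θ₁.comp Θ₁)
    (ihbf_theta_sq Q₁ ψ₁ Θ₁ hΘ₁) hjb hQ
  set I := t2niI jb (Q₁ ^ 2) (ψ₁.comp ψ₁) (ihbf_psi_sq_k ψ₁ hψ₁k)
    (ihbf_psi_sq_j jb ψ₁ hψ₁j) (Θ₁.comp Θ₁) (ihbf_theta_sq Q₁ ψ₁ Θ₁ hΘ₁) with hI
  -- `Θ₁` on `R'`
  let Θ₁R : ↥(t2R (k := k) jb) →ₐ[k] ↥(t2R (k := k) jb) :=
    t2niThetaR jb Q₁ ψ₁ hψ₁k hψ₁j Θ₁ hΘ₁
  have hΘ₁R : ∀ f : ↥(t2R (k := k) jb), ((Θ₁R f : ↥(t2R (k := k) jb)) : E) = Θ₁ (f : E) :=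
    fun _ => rfl
  -- `Θ₁` preserves the node ideal
  have hΘI : ∀ r ∈ I, Θ₁R r ∈ I := by
    have hle : I ≤ I.comap Θ₁R := by
      apply t2niI_le
      intro g
      rw [Ideal.mem_comap, map_sub]
      have h1 : Θ₁R (t2niThetaR jb (Q₁ ^ 2) (ψ₁.comp ψ₁) (ihbf_psi_sq_k ψ₁ hψ₁k)
          (ihbf_psi_sq_j jb ψ₁ hψ₁j) (Θ₁.comp Θ₁) (ihbf_theta_sq Q₁ ψ₁ Θ₁ hΘ₁) g)
          = t2niThetaR jb (Q₁ ^ 2) (ψ₁.comp ψ₁) (ihbf_psi_sq_k ψ₁ hψ₁k)
          (ihbf_psi_sq_j jb ψ₁ hψ₁j) (Θ₁.comp Θ₁) (ihbf_theta_sq Q₁ ψ₁ Θ₁ hΘ₁) (Θ₁R g) := by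
        apply Subtype.ext
        rw [hΘ₁R, coe_t2niThetaR, coe_t2niThetaR, hΘ₁R]
        rfl
      rw [h1]
      exact t2ni_sub_mem jb (Q₁ ^ 2) (ψ₁.comp ψ₁) (ihbf_psi_sq_k ψ₁ hψ₁k)
        (ihbf_psi_sq_j jb ψ₁ hψ₁j) (Θ₁.comp Θ₁) (ihbf_theta_sq Q₁ ψ₁ Θ₁ hΘ₁) _
    exact fun r hr => hle hr
  -- the induced endomorphism of `k^n`
  have hkerle : RingHom.ker ev'.toRingHom ≤ RingHom.ker (ev'.comp Θ₁R).toRingHom := by
    intro r hr
    rw [RingHom.mem_ker] at hr ⊢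
    have h1 : ev' r = 0 := hr
    have h2 : r ∈ I := (hker r).mp h1
    exact (hker _).mpr (hΘI r h2)
  let Θb : (Fin n → k) →ₐ[k] (Fin n → k) :=
    AlgHom.liftOfSurjective ev' hsurj (ev'.comp Θ₁R) hkerle
  have hΘb : ∀ r, Θb (ev' r) = ev' (Θ₁R r) := fun r =>
    AlgHom.liftOfSurjective_apply ev' hsurj (ev'.comp Θ₁R) hkerle r
  -- the coordinates
  have hπex : ∀ s : Fin n, ∃ j : Fin n, ∀ f : Fin n → k, Θb f s = f j := fun s =>
    ihbf_pi_algHom ((Pi.evalAlgHom k (fun _ : Fin n => k) s).comp Θb)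
  choose π hπ using hπex
  have hA : ∀ (r : ↥(t2R (k := k) jb)) (s : Fin n), ev' (Θ₁R r) s = ev' r (π s) := by
    intro r s
    rw [← hΘb, hπ]
  -- separation of points
  have hsep' : ∀ s t : Fin n, (∀ r, ev' r s = ev' r t) → s = t := by
    intro s t h
    obtain ⟨r, hr⟩ := hsurj (Pi.single s 1)
    have := h r
    rw [hr, Pi.single_eq_same] at this
    by_contra hst
    rw [Pi.single_eq_of_ne (Ne.symm hst)] at this
    exact one_ne_zero this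
  have hB : ∀ s, π (π s) = s := by
    intro s
    refine hsep' (π (π s)) s fun r => ?_
    have h1 : r - t2niThetaR jb (Q₁ ^ 2) (ψ₁.comp ψ₁) (ihbf_psi_sq_k ψ₁ hψ₁k)
        (ihbf_psi_sq_j jb ψ₁ hψ₁j) (Θ₁.comp Θ₁) (ihbf_theta_sq Q₁ ψ₁ Θ₁ hΘ₁) r ∈ I :=
      t2ni_sub_mem jb (Q₁ ^ 2) (ψ₁.comp ψ₁) (ihbf_psi_sq_k ψ₁ hψ₁k)
        (ihbf_psi_sq_j jb ψ₁ hψ₁j) (Θ₁.comp Θ₁) (ihbf_theta_sq Q₁ ψ₁ Θ₁ hΘ₁) r
    have h2 := (hker _).mpr h1
    rw [map_sub, sub_eq_zero] at h2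
    have h3 : t2niThetaR jb (Q₁ ^ 2) (ψ₁.comp ψ₁) (ihbf_psi_sq_k ψ₁ hψ₁k)
        (ihbf_psi_sq_j jb ψ₁ hψ₁j) (Θ₁.comp Θ₁) (ihbf_theta_sq Q₁ ψ₁ Θ₁ hΘ₁) r
        = Θ₁R (Θ₁R r) := by
      apply Subtype.ext
      rw [coe_t2niThetaR, hΘ₁R, hΘ₁R]
      rfl
    rw [h3] at h2
    calc ev' r (π (π s)) = ev' (Θ₁R r) (π s) := (hA r (π s)).symm
      _ = ev' (Θ₁R (Θ₁R r)) s := (hA _ s).symm
      _ = ev' r s := by rw [← h2]
  refine ⟨n, ev', π, hsurj, hker, fun f hf s => hA ⟨f, hf⟩ s, hB, ?_⟩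
  intro g g' hg hg' hgg s
  have h1 : Θ₁R ⟨g', hg'⟩ = (⟨g, hg⟩ : ↥(t2R (k := k) jb)) ^ Q₁ := by
    apply Subtype.ext
    rw [hΘ₁R, SubmonoidClass.coe_pow, hΘ₁, hgg]
  have h2 := hA ⟨g', hg'⟩ (π s)
  rw [hB, h1, map_pow] at h2
  rw [← h2]
  rfl

include hψ₁k hψ₁j hΘ₁ hjb hfd hsep in
/-- **the node data on the product, with the map `ι` on the points** -/
theorem ihbf_exists_prod (hQ₁ : 2 ≤ Q₁) (a b : E) (ha : a ∈ Algebra.adjoin k {jb})
    (hb : b ∈ Algebra.adjoin k {jb})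
    (hRab : ∀ f ∈ t2R (k := k) jb, ((f, Θ₁ f) : E × E) ∈ t2R (k := k) ((a, b) : E × E)) :
    ∃ (n : ℕ) (ev : ↥(t2R (k := k) ((a, b) : E × E)) →ₐ[k] (Fin n → k)) (ι : Fin n → Fin n),
      (∀ S₁ : Subalgebra k (E × E),
        (∀ f ∈ t2R (k := k) jb, ((f, Θ₁ f) : E × E) ∈ S₁) →
        (∀ f ∈ t2R (k := k) jb, ((Θ₁ f, f) : E × E) ∈ S₁) →
        ∀ r, ev r = 0 → (r : E × E) ∈ S₁) ∧
      (∀ r r' : ↥(t2R (k := k) ((a, b) : E × E)),
        ψ₁ (r' : E × E).1 = (r : E × E).2 → ψ₁ (r' : E × E).2 = (r : E × E).1 →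
        ∀ i, ev r' i = ev r (ι i) ^ Q₁) ∧
      ∀ i j : Fin n,
        (∀ (f : E) (hf : f ∈ t2R (k := k) jb), ev ⟨(f, Θ₁ f), hRab f hf⟩ i
          = ev ⟨(f, Θ₁ f), hRab f hf⟩ j) →
        j = i ∨ (j = ι i ∧ i = ι j) := by
  classical
  obtain ⟨n, ev', π, hsurj, hker, hA, hB, hC⟩ :=
    ihbf_exists_fin (k := k) jb Q₁ ψ₁ hψ₁k hψ₁j Θ₁ hΘ₁ hjb hQ₁
  -- the two projections
  let p₁ : ↥(t2R (k := k) ((a, b) : E × E)) →ₐ[k] ↥(t2R (k := k) jb) :=
    ((AlgHom.fst k E E).comp (t2R (k := k) ((a, b) : E × E)).val).codRestrict (t2R (k := k) jb)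
      (fun r => by
        have h : IsIntegral ↥(Algebra.adjoin k {((a, b) : E × E).1}) (r : E × E).1 :=
          t2c_isIntegral_fst r.2
        have h' : IsIntegral ↥(Algebra.adjoin k {jb}) (r : E × E).1 :=
          t2c_isIntegral_of_mem_adjoin ha h
        exact h')
  let p₂ : ↥(t2R (k := k) ((a, b) : E × E)) →ₐ[k] ↥(t2R (k := k) jb) :=
    ((AlgHom.snd k E E).comp (t2R (k := k) ((a, b) : E × E)).val).codRestrict (t2R (k := k) jb)
      (fun r => by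
        have h : IsIntegral ↥(Algebra.adjoin k {((a, b) : E × E).2}) (r : E × E).2 :=
          t2c_isIntegral_snd r.2
        have h' : IsIntegral ↥(Algebra.adjoin k {jb}) (r : E × E).2 :=
          t2c_isIntegral_of_mem_adjoin hb h
        exact h')
  have hp₁ : ∀ r, ((p₁ r : ↥(t2R (k := k) jb)) : E) = (r : E × E).1 := fun _ => rfl
  have hp₂ : ∀ r, ((p₂ r : ↥(t2R (k := k) jb)) : E) = (r : E × E).2 := fun _ => rfl
  let e : Fin n ⊕ Fin n ≃ Fin (n + n) := finSumFinEquiv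
  let ev : ↥(t2R (k := k) ((a, b) : E × E)) →ₐ[k] (Fin (n + n) → k) :=
    AlgHom.pi (R := k) (A := fun _ : Fin (n + n) => k) (fun i => Sum.rec
      (fun s => (Pi.evalAlgHom k (fun _ : Fin n => k) s).comp (ev'.comp p₁))
      (fun s => (Pi.evalAlgHom k (fun _ : Fin n => k) s).comp (ev'.comp p₂)) (e.symm i))
  have hev₁ : ∀ r s, ev r (e (Sum.inl s)) = ev' (p₁ r) s := by
    intro r s
    show (Sum.rec (motive := fun _ => ↥(t2R (k := k) ((a, b) : E × E)) →ₐ[k] k) _ _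
      (e.symm (e (Sum.inl s)))) r = _
    rw [Equiv.symm_apply_apply]
    rfl
  have hev₂ : ∀ r s, ev r (e (Sum.inr s)) = ev' (p₂ r) s := by
    intro r s
    show (Sum.rec (motive := fun _ => ↥(t2R (k := k) ((a, b) : E × E)) →ₐ[k] k) _ _
      (e.symm (e (Sum.inr s)))) r = _
    rw [Equiv.symm_apply_apply]
    rfl
  -- the map `ι`
  let ι : Fin (n + n) → Fin (n + n) := fun i =>
    Sum.rec (fun s => e (Sum.inr (π s))) (fun s => e (Sum.inl (π s))) (e.symm i)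
  have hι₁ : ∀ s, ι (e (Sum.inl s)) = e (Sum.inr (π s)) := by
    intro s
    show Sum.rec (motive := fun _ => Fin (n + n)) _ _ (e.symm (e (Sum.inl s))) = _
    rw [Equiv.symm_apply_apply]
  have hι₂ : ∀ s, ι (e (Sum.inr s)) = e (Sum.inl (π s)) := by
    intro s
    show Sum.rec (motive := fun _ => Fin (n + n)) _ _ (e.symm (e (Sum.inr s))) = _
    rw [Equiv.symm_apply_apply]
  -- separation of points on one component
  have hsep' : ∀ s t : Fin n, (∀ r, ev' r s = ev' r t) → s = t := by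
    intro s t h
    obtain ⟨r, hr⟩ := hsurj (Pi.single s 1)
    have := h r
    rw [hr, Pi.single_eq_same] at this
    by_contra hst
    rw [Pi.single_eq_of_ne (Ne.symm hst)] at this
    exact one_ne_zero this
  refine ⟨n + n, ev, ι, ?_, ?_, ?_⟩
  · -- the kernel
    intro S₁ hα hβ r hzero
    have h1 : ev' (p₁ r) = 0 := by
      funext s
      rw [← hev₁, hzero]
      rfl
    have h2 : ev' (p₂ r) = 0 := by
      funext s
      rw [← hev₂, hzero]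
      rfl
    rw [hker] at h1 h2
    have hl : ∀ f ∈ t2R (k := k) jb, ((f - (Θ₁.comp Θ₁) f, (0 : E)) : E × E) ∈ S₁ := by
      intro f hf
      have h3 := hα f hf
      have h4 := hβ (Θ₁ f) (t2ni_map_mem jb Q₁ ψ₁ hψ₁k hψ₁j Θ₁ hΘ₁ hf)
      have := S₁.sub_mem h3 h4
      simpa using this
    have hr : ∀ f ∈ t2R (k := k) jb, (((0 : E), f - (Θ₁.comp Θ₁) f) : E × E) ∈ S₁ := by
      intro f hf
      have h3 := hβ f hf
      have h4 := hα (Θ₁ f) (t2ni_map_mem jb Q₁ ψ₁ hψ₁k hψ₁j Θ₁ hΘ₁ hf)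
      have := S₁.sub_mem h3 h4
      simpa using this
    have hleft : ∀ t : ↥(t2R (k := k) jb), t ∈ t2niI jb (Q₁ ^ 2) (ψ₁.comp ψ₁)
        (ihbf_psi_sq_k ψ₁ hψ₁k) (ihbf_psi_sq_j jb ψ₁ hψ₁j) (Θ₁.comp Θ₁)
        (ihbf_theta_sq Q₁ ψ₁ Θ₁ hΘ₁) → ((t : E), (0 : E)) ∈ S₁ := by
      intro t ht
      have ht' : t ∈ Submodule.span ↥(t2R (k := k) jb)
        (Set.range fun f : ↥(t2R (k := k) jb) => f - t2niThetaR jb (Q₁ ^ 2) (ψ₁.comp ψ₁)
          (ihbf_psi_sq_k ψ₁ hψ₁k) (ihbf_psi_sq_j jb ψ₁ hψ₁j) (Θ₁.comp Θ₁)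
          (ihbf_theta_sq Q₁ ψ₁ Θ₁ hΘ₁) f) := ht
      refine Submodule.span_induction
        (p := fun (t : ↥(t2R (k := k) jb)) _ => ((t : E), (0 : E)) ∈ S₁) ?_ ?_ ?_ ?_ ht'
      · rintro _ ⟨f, rfl⟩
        exact hl f f.2
      · exact S₁.zero_mem
      · intro x y _ _ hx hy
        have := S₁.add_mem hx hy
        simpa using this
      · intro c x _ hx
        have hc' := hα c c.2
        have := S₁.mul_mem hc' hx
        simpa using this
    have hright : ∀ t : ↥(t2R (k := k) jb), t ∈ t2niI jb (Q₁ ^ 2) (ψ₁.comp ψ₁)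
        (ihbf_psi_sq_k ψ₁ hψ₁k) (ihbf_psi_sq_j jb ψ₁ hψ₁j) (Θ₁.comp Θ₁)
        (ihbf_theta_sq Q₁ ψ₁ Θ₁ hΘ₁) → ((0 : E), (t : E)) ∈ S₁ := by
      intro t ht
      have ht' : t ∈ Submodule.span ↥(t2R (k := k) jb)
        (Set.range fun f : ↥(t2R (k := k) jb) => f - t2niThetaR jb (Q₁ ^ 2) (ψ₁.comp ψ₁)
          (ihbf_psi_sq_k ψ₁ hψ₁k) (ihbf_psi_sq_j jb ψ₁ hψ₁j) (Θ₁.comp Θ₁)
          (ihbf_theta_sq Q₁ ψ₁ Θ₁ hΘ₁) f) := ht
      refine Submodule.span_induction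
        (p := fun (t : ↥(t2R (k := k) jb)) _ => ((0 : E), (t : E)) ∈ S₁) ?_ ?_ ?_ ?_ ht'
      · rintro _ ⟨f, rfl⟩
        exact hr f f.2
      · exact S₁.zero_mem
      · intro x y _ _ hx hy
        have := S₁.add_mem hx hy
        simpa using this
      · intro c x _ hx
        have hc' := hβ c c.2
        have := S₁.mul_mem hc' hx
        simpa using this
    have := S₁.add_mem (hleft _ h1) (hright _ h2)
    rw [hp₁, hp₂] at this
    simpa using this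
  · -- (SW)
    intro r r' h1 h2 i
    obtain ⟨s, rfl⟩ := e.surjective i
    rcases s with s | s
    · rw [hev₁, hι₁, hev₂]
      exact hC _ _ (p₂ r).2 (p₁ r').2 (by rw [hp₁, hp₂]; exact h1) s
    · rw [hev₂, hι₂, hev₁]
      exact hC _ _ (p₁ r).2 (p₂ r').2 (by rw [hp₁, hp₂]; exact h2) s
  · -- (BL)
    intro i j hij
    have hval₁ : ∀ (f : E) (hf : f ∈ t2R (k := k) jb) (s : Fin n),
        ev ⟨(f, Θ₁ f), hRab f hf⟩ (e (Sum.inl s)) = ev' ⟨f, hf⟩ s := by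
      intro f hf s
      rw [hev₁]
      rfl
    have hval₂ : ∀ (f : E) (hf : f ∈ t2R (k := k) jb) (s : Fin n),
        ev ⟨(f, Θ₁ f), hRab f hf⟩ (e (Sum.inr s)) = ev' ⟨f, hf⟩ (π s) := by
      intro f hf s
      rw [hev₂, ← hA f hf s]
      rfl
    obtain ⟨s, rfl⟩ := e.surjective i
    obtain ⟨t, rfl⟩ := e.surjective j
    rcases s with s | s <;> rcases t with t | t
    · left
      have : s = t := hsep' s t fun r => by
        have := hij r r.2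
        rwa [hval₁, hval₁] at this
      rw [this]
    · right
      have hst : s = π t := hsep' s (π t) fun r => by
        have := hij r r.2
        rwa [hval₁, hval₂] at this
      rw [hι₁, hι₂, hst, hB]
      exact ⟨rfl, rfl⟩
    · right
      have hst : π s = t := hsep' (π s) t fun r => by
        have := hij r r.2
        rwa [hval₂, hval₁] at this
      rw [hι₂, hι₁, ← hst, hB]
      exact ⟨rfl, rfl⟩
    · left
      have h1 : π s = π t := hsep' (π s) (π t) fun r => by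
        have := hij r r.2
        rwa [hval₂, hval₂] at this
      have : s = t := by rw [← hB s, ← hB t, h1]
      rw [this]

end ND

section FE

universe u

variable (k : Type u) [Field k] (q : ℕ) [hq : Fact q.Prime] [CharP k q] [PerfectRing k q]
  (N' : ℕ) [NeZero N']

/-- `ψ` undoes the coefficientwise Frobenius -/
theorem ihbf_psi_eq {g f : ↥(modularFunctionFieldFullC k N')}
    (h : (g : LaurentSeries k) = coeffMap (frobenius k q) (f : LaurentSeries k)) :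
    t2fePsi k q N' g = f := by
  apply Subtype.ext
  rw [coe_t2fePsi, h, t2fd_coeffMap_frobInv_frob]

variable [IsAlgClosed k] (hN : (N' : k) ≠ 0)

include hN

/-- **the node data `ev`, `hJ` of `T2Setup` for the modular function field, with the map `ι` on
the points**: (SW) `ev (Fr r₂, Fr r₁) i = (ev (r₁, r₂) (ι i)) ^ q` for the coefficientwise
Frobenius `Fr`, and (BL) the elements `(f, Φ f)` separate `i` from every `j ∉ {i, ι i}` -/
theorem ihbf_node_prod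
    (a b : ↥(modularFunctionFieldFullC k N')) (ha : a ∈ Algebra.adjoin k {taBarJ k N'})
    (hb : b ∈ Algebra.adjoin k {taBarJ k N'})
    (hRab : ∀ f ∈ t2R (k := k) (taBarJ k N'),
      ((f, t2fePhi k q N' f) :
        ↥(modularFunctionFieldFullC k N') × ↥(modularFunctionFieldFullC k N')) ∈
        t2R (k := k) ((a, b) :
          ↥(modularFunctionFieldFullC k N') × ↥(modularFunctionFieldFullC k N'))) :
    ∃ (n : ℕ) (ev : ↥(t2R (k := k) ((a, b) :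
        ↥(modularFunctionFieldFullC k N') × ↥(modularFunctionFieldFullC k N'))) →ₐ[k] (Fin n → k))
      (ι : Fin n → Fin n),
      (∀ S₁ : Subalgebra k
          (↥(modularFunctionFieldFullC k N') × ↥(modularFunctionFieldFullC k N')),
        (∀ f ∈ t2R (k := k) (taBarJ k N'), (f, t2fePhi k q N' f) ∈ S₁) →
        (∀ f ∈ t2R (k := k) (taBarJ k N'), (t2fePhi k q N' f, f) ∈ S₁) →
        ∀ r, ev r = 0 →
          (r : ↥(modularFunctionFieldFullC k N') × ↥(modularFunctionFieldFullC k N')) ∈ S₁) ∧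
      (∀ r r' : ↥(t2R (k := k) ((a, b) :
          ↥(modularFunctionFieldFullC k N') × ↥(modularFunctionFieldFullC k N'))),
        (((r' : ↥(modularFunctionFieldFullC k N') × ↥(modularFunctionFieldFullC k N')).1 :
            ↥(modularFunctionFieldFullC k N')) : LaurentSeries k) =
          coeffMap (frobenius k q)
            (((r : ↥(modularFunctionFieldFullC k N') × ↥(modularFunctionFieldFullC k N')).2 :
              ↥(modularFunctionFieldFullC k N')) : LaurentSeries k) →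
        (((r' : ↥(modularFunctionFieldFullC k N') × ↥(modularFunctionFieldFullC k N')).2 :
            ↥(modularFunctionFieldFullC k N')) : LaurentSeries k) =
          coeffMap (frobenius k q)
            (((r : ↥(modularFunctionFieldFullC k N') × ↥(modularFunctionFieldFullC k N')).1 :
              ↥(modularFunctionFieldFullC k N')) : LaurentSeries k) →
        ∀ i, ev r' i = ev r (ι i) ^ q) ∧
      ∀ i j : Fin n,
        (∀ (f : ↥(modularFunctionFieldFullC k N')) (hf : f ∈ t2R (k := k) (taBarJ k N')),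
          ev ⟨(f, t2fePhi k q N' f), hRab f hf⟩ i = ev ⟨(f, t2fePhi k q N' f), hRab f hf⟩ j) →
        j = i ∨ (j = ι i ∧ i = ι j) := by
  haveI := ta_bar_finiteDimensional k N'
  haveI := ta_bar_isSeparable k N' hN
  obtain ⟨n, ev, ι, h1, h2, h3⟩ := ihbf_exists_prod (k := k) (taBarJ k N') q
    (t2fePsi k q N') (fun c => ⟨_, t2fePsi_algebraMap k q N' c⟩) (t2fePsi_J k q N')
    (t2fePhi k q N') (t2fePhi_eq_pow k q N') (ta_bar_transcendental k N') hq.out.two_le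
    a b ha hb hRab
  exact ⟨n, ev, ι, h1,
    fun r r' e1 e2 i => h2 r r' (ihbf_psi_eq k q N' e1) (ihbf_psi_eq k q N' e2) i, h3⟩

end FE

end Fermat.Agent.Ihara
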