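/-
IHARA [B] (B4) (lead): **the export of T2-C with the swap compatibility**: `ihbf_export : IhbfExport`.

The `T2Setup` of `Lib/T2/Inst/SetupFin.lean` (helper9) with the node data of
`Lib/Ihara/B/Frob/Node.lean` in place of `t2fd_node_prod`: the map `ι` on the points over the
nodes, (SW) `ev (Fr r₂, Fr r₁) i = (ev (r₁, r₂) (ι i)) ^ q` and (BL) the blocks of `ev S₁` are
contained in the `{i, ι i}`.
-/
import Fermat.Agent.Lib.T2.Inst.ExportH
import Fermat.Agent.Lib.T2.Inst.SetupFR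
import Fermat.Agent.Lib.Ihara.B.Frob.Node
import Fermat.Agent.Lib.Ihara.B.Frob.Defs

set_option autoImplicit false
set_option linter.unusedSectionVars false
set_option linter.unusedVariables false
set_option linter.style.haveILetI false
set_option synthInstance.maxHeartbeats 400000
set_option maxHeartbeats 1000000

open HahnSeries ModularCurve Fermat.Agent.T1 Fermat.Agent.TW Fermat.Agent.S24Lib IntermediateField
  AlgebraicCurve Fermat.Agent.Curve Module Fermat.Agent.T2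

noncomputable section

namespace Fermat.Agent.Ihara

section Setup

variable {L : Type*} [Field L] [Algebra ℚ L] {O : ValuationSubring L} {k : Type*} [Field k]
  {π : ↥O →+* k} [IsDiscreteValuationRing ↥O] {hπ : Function.Surjective π} [IsAlgClosed k]
  {N' q : ℕ} [NeZero N'] [hq : Fact q.Prime] [CharP k q] {hN' : (N' : k) ≠ 0}
  {W : T2iAL L N' q} (Fr : T2iFrob k N' q)

attribute [local instance] t2iAlgebra t2i_isScalarTower t2i_dvr_A

section Hyp

variable {nn : ℕ} (Hy : T2iHyp O π hπ hN' W nn)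

include Hy

/-- `(f, Φ f)` lies in the integral closure of `k[x̄_s]` -/
theorem ihbf_alpha_mem_t2R (f : ↥(modularFunctionFieldFullC k N'))
    (hf : f ∈ t2R (k := k) (taBarJ k N')) :
    ((f, t2fePhi k q N' f) :
      ↥(modularFunctionFieldFullC k N') × ↥(modularFunctionFieldFullC k N')) ∈
      t2R (k := k) ((t2iBase2 O π hπ hN' W Fr).res ⟨t2iXs W, t2i_Xs_mem O π hπ hN' W Fr⟩) := by
  obtain ⟨g, hg, hres⟩ := (t2i_alpha_mem_resIntAlg Fr Hy f hf).1
  rw [← hres]
  exact t2i_int1 Fr Hy g hg.2 hg.1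

/-- **the node data** `ev`, `hJ`, with the map `ι`, (SW) and (BL) -/
theorem ihbf_node :
    ∃ (n : ℕ) (ev : ↥(t2R (k := k) ((t2iBase2 O π hπ hN' W Fr).res
        ⟨t2iXs W, t2i_Xs_mem O π hπ hN' W Fr⟩)) →ₐ[k] (Fin n → k)) (ι : Fin n → Fin n),
      (∀ r, ev r = 0 →
        (r : ↥(modularFunctionFieldFullC k N') × ↥(modularFunctionFieldFullC k N')) ∈
          (t2iBase2 O π hπ hN' W Fr).resIntAlg (t2iXs W)) ∧
      (∀ r r' : ↥(t2R (k := k) ((t2iBase2 O π hπ hN' W Fr).res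
          ⟨t2iXs W, t2i_Xs_mem O π hπ hN' W Fr⟩)),
        (((r' : ↥(modularFunctionFieldFullC k N') × ↥(modularFunctionFieldFullC k N')).1 :
            ↥(modularFunctionFieldFullC k N')) : LaurentSeries k) =
          coeffMap (frobenius k q)
            (((r : ↥(modularFunctionFieldFullC k N') × ↥(modularFunctionFieldFullC k N')).2 :
              ↥(modularFunctionFieldFullC k N')) : LaurentSeries k) →
        (((r' : ↥(modularFunctionFieldFullC k N') × ↥(modularFunctionFieldFullC k N')).2 :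
            ↥(modularFunctionFieldFullC k N')) : LaurentSeries k) =
          coeffMap (frobenius k q)
            (((r : ↥(modularFunctionFieldFullC k N') × ↥(modularFunctionFieldFullC k N')).1 :
              ↥(modularFunctionFieldFullC k N')) : LaurentSeries k) →
        ∀ i, ev r' i = ev r (ι i) ^ q) ∧
      ∀ i j : Fin n,
        (∀ r : ↥(t2R (k := k) ((t2iBase2 O π hπ hN' W Fr).res
            ⟨t2iXs W, t2i_Xs_mem O π hπ hN' W Fr⟩)),
          (r : ↥(modularFunctionFieldFullC k N') × ↥(modularFunctionFieldFullC k N')) ∈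
            (t2iBase2 O π hπ hN' W Fr).resIntAlg (t2iXs W) → ev r i = ev r j) →
        j = i ∨ (j = ι i ∧ i = ι j) := by
  have key : ∀ xb : ↥(modularFunctionFieldFullC k N') × ↥(modularFunctionFieldFullC k N'),
      xb = (t2iXb k N' q ^ (q + 1), t2iXb k N' q ^ (q + 1)) →
      (∀ f ∈ t2R (k := k) (taBarJ k N'),
        ((f, t2fePhi k q N' f) :
          ↥(modularFunctionFieldFullC k N') × ↥(modularFunctionFieldFullC k N')) ∈
          t2R (k := k) xb) →
      ∃ (n : ℕ) (ev : ↥(t2R (k := k) xb) →ₐ[k] (Fin n → k)) (ι : Fin n → Fin n),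
        (∀ r, ev r = 0 →
          (r : ↥(modularFunctionFieldFullC k N') × ↥(modularFunctionFieldFullC k N')) ∈
            (t2iBase2 O π hπ hN' W Fr).resIntAlg (t2iXs W)) ∧
        (∀ r r' : ↥(t2R (k := k) xb),
          (((r' : ↥(modularFunctionFieldFullC k N') × ↥(modularFunctionFieldFullC k N')).1 :
              ↥(modularFunctionFieldFullC k N')) : LaurentSeries k) =
            coeffMap (frobenius k q)
              (((r : ↥(modularFunctionFieldFullC k N') × ↥(modularFunctionFieldFullC k N')).2 :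
                ↥(modularFunctionFieldFullC k N')) : LaurentSeries k) →
          (((r' : ↥(modularFunctionFieldFullC k N') × ↥(modularFunctionFieldFullC k N')).2 :
              ↥(modularFunctionFieldFullC k N')) : LaurentSeries k) =
            coeffMap (frobenius k q)
              (((r : ↥(modularFunctionFieldFullC k N') × ↥(modularFunctionFieldFullC k N')).1 :
                ↥(modularFunctionFieldFullC k N')) : LaurentSeries k) →
          ∀ i, ev r' i = ev r (ι i) ^ q) ∧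
        ∀ i j : Fin n,
          (∀ r : ↥(t2R (k := k) xb),
            (r : ↥(modularFunctionFieldFullC k N') × ↥(modularFunctionFieldFullC k N')) ∈
              (t2iBase2 O π hπ hN' W Fr).resIntAlg (t2iXs W) → ev r i = ev r j) →
          j = i ∨ (j = ι i ∧ i = ι j) := by
    intro xb hxb hRab
    subst hxb
    obtain ⟨n, ev, ι, h1, h2, h3⟩ := ihbf_node_prod k q N' hN' (t2iXb k N' q ^ (q + 1))
      (t2iXb k N' q ^ (q + 1)) t2i_xi_mem t2i_xi_mem hRab
    refine ⟨n, ev, ι, h1 ((t2iBase2 O π hπ hN' W Fr).resIntAlg (t2iXs W))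
      (fun f hf => (t2i_alpha_mem_resIntAlg Fr Hy f hf).1)
      (fun f hf => (t2i_alpha_mem_resIntAlg Fr Hy f hf).2), h2, ?_⟩
    intro i j hij
    exact h3 i j (fun f hf => hij ⟨_, hRab f hf⟩ (t2i_alpha_mem_resIntAlg Fr Hy f hf).1)
  exact key _ (t2i_res_Xs O π hπ hN' W Fr) (ihbf_alpha_mem_t2R Fr Hy)

/-- **the `T2Setup` for the two-valuation base and the symmetric chart `x_s`, with `ι`, (SW) and
(BL)** -/
theorem ihbf_exists_setup (hqA : ((q : ℕ) : L) ∈ O.nonunits) (m : ℕ) (hm : Nat.Coprime m q)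
    (n₀ : ℕ) (c₀ : ℤ) (a₀ : ℕ)
    (finL0 : ∀ a b : ℕ, FiniteDimensional L ↥(tbLbar (K := L) (t2iXs W) a b))
    (dim0 : ∀ a b : ℕ, a₀ ≤ a + b →
      (Module.finrank L ↥(tbLbar (K := L) (t2iXs W) a b) : ℤ) = ((a + b : ℕ) : ℤ) * n₀ + c₀) :
    ∃ (n : ℕ) (su : T2Setup (t2iBase2 O π hπ hN' W Fr) (Fin n)) (ι : Fin n → Fin n),
      su.x = t2iXs W ∧ su.m = m ∧ su.ℓ = q ∧ su.n = n₀ ∧ su.c = c₀ ∧ su.a0 = a₀ ∧
      (∀ r r' : ↥(t2R (k := k) su.xb),
        (((r' : ↥(modularFunctionFieldFullC k N') × ↥(modularFunctionFieldFullC k N')).1 :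
            ↥(modularFunctionFieldFullC k N')) : LaurentSeries k) =
          coeffMap (frobenius k q)
            (((r : ↥(modularFunctionFieldFullC k N') × ↥(modularFunctionFieldFullC k N')).2 :
              ↥(modularFunctionFieldFullC k N')) : LaurentSeries k) →
        (((r' : ↥(modularFunctionFieldFullC k N') × ↥(modularFunctionFieldFullC k N')).2 :
            ↥(modularFunctionFieldFullC k N')) : LaurentSeries k) =
          coeffMap (frobenius k q)
            (((r : ↥(modularFunctionFieldFullC k N') × ↥(modularFunctionFieldFullC k N')).1 :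
              ↥(modularFunctionFieldFullC k N')) : LaurentSeries k) →
        ∀ i, su.ev r' i = su.ev r (ι i) ^ q) ∧
      ∀ i j : Fin n,
        (∀ r : ↥(t2R (k := k) su.xb),
          (r : ↥(modularFunctionFieldFullC k N') × ↥(modularFunctionFieldFullC k N')) ∈ su.S1 →
            su.ev r i = su.ev r j) →
        j = i ∨ (j = ι i ∧ i = ι j) := by
  obtain ⟨e, he⟩ := t2i_fin1 Fr Hy
  obtain ⟨n, ev, ι, hev, hsw, hbl⟩ := ihbf_node Fr Hy
  haveI : CharZero L := algebraRat.charZero L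
  refine ⟨n,
    { ℓ := q
      hℓ := hq.out
      hℓA := hqA
      hℓ0 := Nat.cast_ne_zero.mpr hq.out.ne_zero
      m := m
      hm := hm
      x := t2iXs W
      hx0 := t2i_Xs_ne_zero W
      hx := t2i_Xs_mem O π hπ hN' W Fr
      hxi := t2i_Xs_inv_mem O π hπ hN' W Fr
      int1 := t2i_int1 Fr Hy
      int2 := t2i_int2 Fr Hy
      e := e
      fin1 := he
      ex2 := fun f hf => t2_exists_pow_mul_mem_t2Int (t2i_Xs_ne_zero W) hf
      sm2 := t2i_sm2 Fr Hy
      exb := fun t ht => t2_isIntegral_inv_pow_mul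
        (t2f_res_mul_inv (t2iBase2 O π hπ hN' W Fr) (t2i_Xs_ne_zero W)
          (t2i_Xs_mem O π hπ hN' W Fr) (t2i_Xs_inv_mem O π hπ hN' W Fr)) ht
      finLt := fun a => by
        rw [t2i_res_Xs, t2i_res_Xs_inv]
        exact Hy.sf2 a
      ev := ev
      hJ := hev
      n := n₀
      c := c₀
      a0 := a₀
      finL0 := finL0
      dim0 := dim0 }, ι, rfl, rfl, rfl, rfl, rfl, rfl, hsw, hbl⟩

end Hyp

end Setup

local notation "Qb" => AlgebraicClosure ℚ

attribute [local instance] t2i_dvr t2i_isAlgClosed t2i_charP t2i_fact t2iAlgebra t2i_isScalarTower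

section Fix

variable (𝔓 : FFPlace) (H : Subgroup 𝔓.I) [H.FiniteIndex] (N' : ℕ) [NeZero N'] (h : ¬ 𝔓.p ∣ N')

set_option maxHeartbeats 16000000 in
/-- **the `T2Setup` at the level `H` with `ι`, (SW) and (BL)**, in the shape of `IhbfExport` -/
theorem ihbf_exists_setup_fix (h49 : 4 ∣ N' ∨ 9 ∣ N') (m : ℕ) (hm : Nat.Coprime m 𝔓.p) :
    ∃ (n : ℕ) (su : T2Setup (t2iBase2Fix 𝔓 H N' h) (Fin n)) (ι : Fin n → Fin n),
      su.m = m ∧ su.x = t2gaX 𝔓 H N' h (𝔓.p ^ 2) ∧
      (su.n : ℤ) = finrank ↥Qb⟮tbPhiF 𝔓 (N' * 𝔓.p) H su.x⟯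
        ↥(modularFunctionFieldBar (N' * 𝔓.p)) ∧
      su.c = 1 - CurveP.genusR Qb ↥(modularFunctionFieldBar (N' * 𝔓.p)) ∧
      (∀ r r' : ↥(t2R (k := IsLocalRing.ResidueField ↥𝔓.P) su.xb),
        (((r' : ↥(tbBarF 𝔓 N') × ↥(tbBarF 𝔓 N')).1 : ↥(tbBarF 𝔓 N')) :
            LaurentSeries (IsLocalRing.ResidueField ↥𝔓.P)) =
          coeffMap (frobenius (IsLocalRing.ResidueField ↥𝔓.P) 𝔓.p)
            (((r : ↥(tbBarF 𝔓 N') × ↥(tbBarF 𝔓 N')).2 : ↥(tbBarF 𝔓 N')) :
              LaurentSeries (IsLocalRing.ResidueField ↥𝔓.P)) →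
        (((r' : ↥(tbBarF 𝔓 N') × ↥(tbBarF 𝔓 N')).2 : ↥(tbBarF 𝔓 N')) :
            LaurentSeries (IsLocalRing.ResidueField ↥𝔓.P)) =
          coeffMap (frobenius (IsLocalRing.ResidueField ↥𝔓.P) 𝔓.p)
            (((r : ↥(tbBarF 𝔓 N') × ↥(tbBarF 𝔓 N')).1 : ↥(tbBarF 𝔓 N')) :
              LaurentSeries (IsLocalRing.ResidueField ↥𝔓.P)) →
        ∀ i, su.ev r' i = su.ev r (ι i) ^ 𝔓.p) ∧
      ∀ i j : Fin n,
        (∀ r : ↥(t2R (k := IsLocalRing.ResidueField ↥𝔓.P) su.xb),
          (r : ↥(tbBarF 𝔓 N') × ↥(tbBarF 𝔓 N')) ∈ su.S1 → su.ev r i = su.ev r j) →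
        j = i ∨ (j = ι i ∧ i = ι j) := by
  have hX := t2i_gen_Xs 𝔓 H N' h
  obtain ⟨n, su, ι, hx, hm', -, hn, hc, -, hsw, hbl⟩ :=
    ihbf_exists_setup (t2iFrobFix 𝔓 N')
      (t2i_hyp_fix 𝔓 H N' h (t2i_leafGR 𝔓 H N' h h49) (t2i_leafSF 𝔓 N' h))
      (t2i_p_mem_nonunits 𝔓 H) m hm
      (finrank ↥Qb⟮tbPhiF 𝔓 (N' * 𝔓.p) H (t2iXs (t2iALFix 𝔓 H N' h))⟯
        ↥(modularFunctionFieldBar (N' * 𝔓.p)))
      (1 - CurveP.genusR Qb ↥(modularFunctionFieldBar (N' * 𝔓.p)))
      (2 * CurveP.genusR Qb ↥(modularFunctionFieldBar (N' * 𝔓.p)))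
      (t2d_finiteDimensional_tbLbar_mod 𝔓 (N' * 𝔓.p) H hX)
      (fun a b hab => t2d_dim0_mod 𝔓 (N' * 𝔓.p) H hX a b (by omega))
  refine ⟨n, su, ι, hm', hx, ?_, hc, hsw, hbl⟩
  rw [hn, hx]

end Fix

/-- **the export of T2-C with the swap compatibility** -/
theorem ihbf_export : IhbfExport := by
  intro 𝔓 N' _ h h49 m hm
  refine ⟨𝔓.p ^ 2, t2ca_two_le 𝔓.p, ?_⟩
  intro H _ _
  exact ihbf_exists_setup_fix 𝔓 H N' h h49 m hm

end Fermat.Agent.Ihara
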