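/-
IHARA [B] (B4) (lead): **descent of the level** for the unsquared Frobenius relation on the toric
part (copy of `Lib/T2/F/ToricLevel.lean`, helper5).

`ihbf_at_of_mul`: the statement `IhbfAt (N' * e) q` at the level `N' e q` implies the statement
`IhbfAt N' q` at the level `N' q` (`q ∤ N' e`).
`ihbf_all_of_good : IhbfGood → IhbfAll`: raise the level by `4` (`q` odd) or `9` (`q = 2`).
-/
import Fermat.Agent.Lib.Ihara.B.Frob.Defs
import Fermat.Agent.Lib.T2.F.ToricLevel

set_option autoImplicit false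
set_option linter.unusedSectionVars false
set_option linter.unusedVariables false
set_option linter.style.haveILetI false

namespace Fermat.Agent.Ihara

open ModularCurve HahnSeries AlgebraicCurve Fermat.Agent.T1 Fermat.Agent.S24Lib Fermat.Agent.T2
open ModularGroup (S T)

local notation "Kbar" => AlgebraicClosure ℚ
local notation "GQ" => (AlgebraicClosure ℚ ≃ₐ[ℚ] AlgebraicClosure ℚ)

/-- `w_q` preserves `tWsub` -/
theorem ihbf_w_mem_tWsub (N' q : ℕ) [NeZero N'] [hq : Fact q.Prime] (h : ¬ q ∣ N') (m : ℕ)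
    {y : (↥(modularFunctionFieldBar (N' * q)))ˣ} (hy : y ∈ tWsub Kbar (N' * q) m) :
    Units.map ((t2w Kbar N' q h :
        ↥(modularFunctionFieldBar (N' * q)) ≃ₐ[Kbar] ↥(modularFunctionFieldBar (N' * q))) :
        ↥(modularFunctionFieldBar (N' * q)) →* ↥(modularFunctionFieldBar (N' * q))) y
      ∈ tWsub Kbar (N' * q) m := by
  intro P
  set g := SemilinearAut.ofAlgAut (t2w Kbar N' q h) with hg
  have h1 : P = g • (g⁻¹ • P) := by rw [smul_inv_smul]
  have h2 : ((Units.map ((t2w Kbar N' q h :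
        ↥(modularFunctionFieldBar (N' * q)) ≃ₐ[Kbar] ↥(modularFunctionFieldBar (N' * q))) :
        ↥(modularFunctionFieldBar (N' * q)) →* ↥(modularFunctionFieldBar (N' * q))) y :
        (↥(modularFunctionFieldBar (N' * q)))ˣ) : ↥(modularFunctionFieldBar (N' * q)))
      = g • ((y : (↥(modularFunctionFieldBar (N' * q)))ˣ) : ↥(modularFunctionFieldBar (N' * q))) :=
    rfl
  rw [h1, h2, SemilinearAut.ord_smul]
  exact hy _

/-- **descent of the level**: the statement at the level `N' e q` implies the statement at the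
level `N' q` -/
theorem ihbf_at_of_mul (N' q e : ℕ) [NeZero N'] [NeZero e] [hq : Fact q.Prime] (h : ¬ q ∣ N')
    (h' : ¬ q ∣ N' * e) (hup : IhbfAt (N' * e) q h') : IhbfAt N' q h := by
  intro A hA φ hφ m hm hm0 y hy hinf1 hinf2
  obtain ⟨s₁, hs₁⟩ := hinf1
  obtain ⟨s₂, hs₂⟩ := hinf2
  -- the hypotheses at the level `N' e q`
  have hy' : t2flIncU N' q e y ∈ tWsub Kbar (N' * e * q) m := t2fl_tWsub N' q e m hy
  have h1 : T2fInf (N' * e * q) A (t2flIncU N' q e y * t2flIncU N' q e s₁ ^ m) := by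
    have := t2fl_inf N' q e A hs₁
    rwa [map_mul, map_pow] at this
  have h2 : T2fInf (N' * e * q) A
      (Units.map ((t2w Kbar (N' * e) q h' :
        ↥(modularFunctionFieldBar (N' * e * q)) ≃ₐ[Kbar] ↥(modularFunctionFieldBar (N' * e * q))) :
        ↥(modularFunctionFieldBar (N' * e * q)) →* ↥(modularFunctionFieldBar (N' * e * q)))
        (t2flIncU N' q e y) * t2flIncU N' q e s₂ ^ m) := by
    have := t2fl_inf N' q e A hs₂
    rwa [map_mul, map_pow, ← t2fl_wU N' q e h h'] at this
  obtain ⟨ts, hts⟩ := hup A hA φ hφ m hm hm0 (t2flIncU N' q e y) hy' ⟨_, h1⟩ ⟨_, h2⟩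
  -- the product `u = φ y · (w y) ^ q`
  set u : (↥(modularFunctionFieldBar (N' * q)))ˣ :=
    tkrSig (N' * q) φ y * (Units.map ((t2w Kbar N' q h :
        ↥(modularFunctionFieldBar (N' * q)) ≃ₐ[Kbar] ↥(modularFunctionFieldBar (N' * q))) :
        ↥(modularFunctionFieldBar (N' * q)) →* ↥(modularFunctionFieldBar (N' * q))) y) ^ q with hu
  have huW : u ∈ tWsub Kbar (N' * q) m :=
    (tWsub Kbar (N' * q) m).mul_mem (tkrSig_mem_tWsub (N' * q) m φ hy)
      ((tWsub Kbar (N' * q) m).pow_mem (ihbf_w_mem_tWsub N' q h m hy) q)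
  have hιu : t2flIncU N' q e u = ts ^ m := by
    rw [hu, map_mul, map_pow, ← t2fl_sig, ← t2fl_wU N' q e h h', hts]
  have hcoe : ((ts : ↥(modularFunctionFieldBar (N' * e * q))) : LaurentSeries Kbar) ^ m
      = ((u : ↥(modularFunctionFieldBar (N' * q))) : LaurentSeries Kbar) := by
    rw [← coe_t2flIncU N' q e u, hιu, Units.val_pow_eq_pow_val, SubmonoidClass.coe_pow]
  have htsmem : ((ts : ↥(modularFunctionFieldBar (N' * e * q))) : LaurentSeries Kbar)
      ∈ modularFunctionFieldBar (N' * q * e) := by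
    have key : ∀ z : LaurentSeries Kbar, z ∈ modularFunctionFieldBar (N' * e * q) →
        z ∈ modularFunctionFieldBar (N' * q * e) := by
      intro z hz
      rwa [Nat.mul_right_comm] at hz
    exact key _ (ts : ↥(modularFunctionFieldBar (N' * e * q))).2
  have hgN : ((ts : ↥(modularFunctionFieldBar (N' * e * q))) : LaurentSeries Kbar)
      ∈ modularFunctionFieldBar (N' * q) :=
    tkr_root_descend_mul hm0 e (NeZero.ne e) (N' * q) (u : ↥(modularFunctionFieldBar (N' * q))).2
      htsmem hcoe (tdd_cusp_dvd (N' * q) m u huW S)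
  have hg0 : (⟨((ts : ↥(modularFunctionFieldBar (N' * e * q))) : LaurentSeries Kbar), hgN⟩ :
      ↥(modularFunctionFieldBar (N' * q))) ≠ 0 := by
    intro h0
    have h3 : ((ts : ↥(modularFunctionFieldBar (N' * e * q))) : LaurentSeries Kbar) = 0 :=
      congrArg Subtype.val h0
    have h4 : (ts : ↥(modularFunctionFieldBar (N' * e * q))) = 0 := Subtype.ext h3
    exact ts.ne_zero h4
  refine ⟨Units.mk0 _ hg0, ?_⟩
  apply Units.ext
  apply Subtype.ext
  rw [Units.val_pow_eq_pow_val, Units.val_mk0, SubmonoidClass.coe_pow]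
  exact hcoe.symm

/-- **reduction to the good levels** `4 ∣ N'` or `9 ∣ N'` -/
theorem ihbf_all_of_good (hgood : IhbfGood) : IhbfAll := by
  intro N' q _ hq h
  by_cases h2 : q = 2
  · -- `q = 2`: raise the level by `9`
    have h' : ¬ q ∣ N' * 9 := by
      intro hdvd
      rcases (Nat.Prime.dvd_mul hq.out).mp hdvd with h3 | h3
      · exact h h3
      · rw [h2] at h3
        omega
    exact ihbf_at_of_mul N' q 9 h h' (hgood (N' * 9) q h' (Or.inr (Dvd.intro_left N' rfl)))
  · -- `q` odd: raise the level by `4`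
    have h' : ¬ q ∣ N' * 4 := by
      intro hdvd
      rcases (Nat.Prime.dvd_mul hq.out).mp hdvd with h3 | h3
      · exact h h3
      · have h4 : q ∣ 2 ^ 2 := by norm_num; exact h3
        exact h2 ((Nat.prime_dvd_prime_iff_eq hq.out Nat.prime_two).mp (hq.out.dvd_of_dvd_pow h4))
    exact ihbf_at_of_mul N' q 4 h h' (hgood (N' * 4) q h' (Or.inl (Dvd.intro_left N' rfl)))

end Fermat.Agent.Ihara
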