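/-
IHARA [B] (B4) (lead): **the nowhere vanishing element of a gluing invariant** — pure linear algebra.

`ihbf_block_unit`: `T ⊆ k^Σ` a subspace containing `1`, `V ⊆ k^Σ` a subspace all of whose elements
have their `m`-th power in `T`, with `dim T ≤ dim V`: then `V` contains a nowhere vanishing
element (whose `m`-th power is `1`).

`ihbf_node_unit`: in the situation of the node lemma `t2e_node` (`Lib/T2/Core/NodeE.lean`), the
module `M` contains an element whose evaluation vanishes nowhere.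
-/
import Fermat.Agent.Lib.T2.Core.NodeE

set_option autoImplicit false
set_option linter.style.haveILetI false

namespace Fermat.Agent.Ihara

open Fermat.Agent.T2

section Block

variable {k σ : Type*} [Field k] [Fintype σ] [DecidableEq σ]

/-- **the nowhere vanishing element** in the extremal case of the block lemma -/
theorem ihbf_block_unit (T V : Submodule k (σ → k)) (h1 : (1 : σ → k) ∈ T)
    {m : ℕ} (hm : 0 < m) (hpow : ∀ v ∈ V, v ^ m ∈ T)
    (hle : Module.finrank k ↥T ≤ Module.finrank k ↥V) :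
    ∃ v ∈ V, v ^ m = 1 ∧ ∀ P, v P ≠ 0 := by
  classical
  obtain ⟨s, hsurj, hinj⟩ := t2e_exists_coord T
  -- restriction is injective on `V`
  have hinjV : ∀ v ∈ V, t2eRestr k s v = 0 → v = 0 := by
    intro v hv h0
    have h2 : t2eRestr k s (v ^ m) = 0 := by
      funext i
      have := congrFun h0 i
      simp only [t2eRestr_apply, Pi.zero_apply] at this
      simp only [t2eRestr_apply, Pi.pow_apply, Pi.zero_apply, this, zero_pow hm.ne']
    have h3 := hinj _ (hpow v hv) h2
    funext P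
    have := congrFun h3 P
    simp only [Pi.pow_apply, Pi.zero_apply] at this
    exact pow_eq_zero_iff hm.ne' |>.mp this
  have hT : Module.finrank k ↥T = s.card := by
    have hbij : Function.Bijective ((t2eRestr k s).comp T.subtype) := by
      refine ⟨?_, ?_⟩
      · rw [← LinearMap.ker_eq_bot, LinearMap.ker_eq_bot']
        intro t ht
        exact Subtype.ext (hinj t t.2 ht)
      · intro g
        obtain ⟨t, ht, htg⟩ := hsurj g
        exact ⟨⟨t, ht⟩, htg⟩
    have e := LinearEquiv.ofBijective _ hbij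
    rw [e.finrank_eq, Module.finrank_fintype_fun_eq_card, Fintype.card_coe]
  have hinj' : Function.Injective ((t2eRestr k s).comp V.subtype) := by
    rw [← LinearMap.ker_eq_bot, LinearMap.ker_eq_bot']
    intro v hv
    exact Subtype.ext (hinjV v v.2 hv)
  have hV : Module.finrank k ↥V ≤ s.card := by
    have := LinearMap.finrank_le_finrank_of_injective hinj'
    rwa [Module.finrank_fintype_fun_eq_card, Fintype.card_coe] at this
  have hVs : Module.finrank k ↥V = s.card := le_antisymm hV (hT ▸ hle)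
  have hsurjV : Function.Surjective ((t2eRestr k s).comp V.subtype) := by
    refine (LinearMap.injective_iff_surjective_of_finrank_eq_finrank ?_).mp hinj'
    rw [hVs, Module.finrank_fintype_fun_eq_card, Fintype.card_coe]
  obtain ⟨v₀, hv₀⟩ := hsurjV (fun _ => 1)
  have hv₀m : (v₀ : σ → k) ^ m = 1 := by
    have h2 : ((v₀ : σ → k) ^ m - 1) ∈ T := T.sub_mem (hpow _ v₀.2) h1
    have h3 : t2eRestr k s ((v₀ : σ → k) ^ m - 1) = 0 := by
      funext i
      have := congrFun hv₀ i
      simp only [LinearMap.coe_comp, Submodule.coe_subtype, Function.comp_apply,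
        t2eRestr_apply] at this
      simp only [t2eRestr_apply, Pi.sub_apply, Pi.pow_apply, Pi.one_apply, Pi.zero_apply, this,
        one_pow, sub_self]
    exact sub_eq_zero.mp (hinj _ h2 h3)
  refine ⟨v₀, v₀.2, hv₀m, ?_⟩
  intro P h0
  have := congrFun hv₀m P
  simp only [Pi.pow_apply, Pi.one_apply, h0, zero_pow hm.ne'] at this
  exact zero_ne_one this

end Block

section Node

variable {k E σ : Type*} [Field k] [CommRing E] [Algebra k E] [Fintype σ] [DecidableEq σ]

/-- **the nowhere vanishing element of `M`** in the situation of the node lemma -/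
theorem ihbf_node_unit (R : Subalgebra k E) (ev : ↥R →ₐ[k] (σ → k))
    (S : Subalgebra k E) (hSR : S ≤ R) (hJ : ∀ r : ↥R, ev r = 0 → (r : E) ∈ S)
    (M : Submodule k E) (hMR : M ≤ Subalgebra.toSubmodule R)
    {m : ℕ} (hm : 0 < m) (hpow : ∀ v ∈ M, v ^ m ∈ S)
    (V : ℕ → Submodule k E) (hVmono : Monotone V) (hVfin : ∀ a, FiniteDimensional k ↥(V a))
    (hVex : ∀ r ∈ R, ∃ a, r ∈ V a) (a₁ : ℕ)
    (hdim : ∀ a, a₁ ≤ a → Module.finrank k ↥(Subalgebra.toSubmodule S ⊓ V a) ≤
      Module.finrank k ↥(M ⊓ V a)) :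
    ∃ (v : E) (_ : v ∈ M) (hvR : v ∈ R), ∀ i, ev ⟨v, hvR⟩ i ≠ 0 := by
  classical
  have hSR' : Subalgebra.toSubmodule S ≤ Subalgebra.toSubmodule R := hSR
  set T : Submodule k (σ → k) := LinearMap.range (t2eEv R ev _ hSR') with hT
  set W : Submodule k (σ → k) := LinearMap.range (t2eEv R ev M hMR) with hW
  have h1T : (1 : σ → k) ∈ T := ⟨⟨1, S.one_mem⟩, by
    rw [t2eEv_apply]
    exact map_one ev⟩
  have hpowW : ∀ w ∈ W, w ^ m ∈ T := by
    rintro _ ⟨v, rfl⟩
    refine ⟨⟨(v : E) ^ m, hpow _ v.2⟩, ?_⟩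
    rw [t2eEv_apply, t2eEv_apply, ← map_pow]
    rfl
  -- `T` is reached on a finite level
  obtain ⟨a₂, ha₂⟩ : ∃ a₂, ∀ a, a₂ ≤ a →
      T ≤ LinearMap.range (t2eEv R ev (Subalgebra.toSubmodule S ⊓ V a)
        (inf_le_left.trans hSR')) := by
    obtain ⟨G, hG⟩ := (IsNoetherian.noetherian T : T.FG)
    have hGT : ∀ g ∈ G, g ∈ T := fun g hg => hG ▸ Submodule.subset_span hg
    have hch : ∀ g : σ → k, ∃ a : ℕ, g ∈ G → ∃ s : E, ∃ hs : s ∈ S, s ∈ V a ∧
        ev ⟨s, hSR hs⟩ = g := by
      intro g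
      by_cases hg : g ∈ G
      · obtain ⟨s, hs⟩ := hGT g hg
        obtain ⟨a, ha⟩ := hVex (s : E) (hSR s.2)
        exact ⟨a, fun _ => ⟨s, s.2, ha, hs⟩⟩
      · exact ⟨0, fun h => absurd h hg⟩
    choose a ha using hch
    refine ⟨G.sup a, fun b hb => ?_⟩
    rw [← hG, Submodule.span_le]
    intro g hg
    obtain ⟨s, hs, hsV, hsg⟩ := ha g hg
    exact ⟨⟨s, hs, hVmono ((Finset.le_sup hg).trans hb) hsV⟩, hsg⟩
  -- the dimension count
  have hkey : Module.finrank k ↥T ≤ Module.finrank k ↥W := by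
    set a := max a₁ a₂ with ha
    have h1 : a₁ ≤ a := le_max_left _ _
    have h2 : a₂ ≤ a := le_max_right _ _
    haveI := hVfin a
    haveI : FiniteDimensional k ↥(Subalgebra.toSubmodule S ⊓ V a) :=
      Submodule.finiteDimensional_of_le inf_le_right
    haveI : FiniteDimensional k ↥(M ⊓ V a) := Submodule.finiteDimensional_of_le inf_le_right
    have e1 := t2e_finrank_eq R ev (Subalgebra.toSubmodule S ⊓ V a) (inf_le_left.trans hSR')
    have e2 := t2e_finrank_eq R ev (M ⊓ V a) (inf_le_left.trans hMR)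
    have i1 : Module.finrank k ↥T ≤ Module.finrank k ↥(LinearMap.range
        (t2eEv R ev (Subalgebra.toSubmodule S ⊓ V a) (inf_le_left.trans hSR'))) :=
      Submodule.finrank_mono (ha₂ a h2)
    have i2 : Module.finrank k ↥(LinearMap.range (t2eEv R ev (M ⊓ V a) (inf_le_left.trans hMR))) ≤
        Module.finrank k ↥W := by
      refine Submodule.finrank_mono ?_
      rintro _ ⟨v, rfl⟩
      exact ⟨⟨(v : E), v.2.1⟩, rfl⟩
    have hJS : V a ⊓ t2eKer R ev ≤ Subalgebra.toSubmodule S ⊓ V a ⊓ t2eKer R ev := by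
      intro e he
      obtain ⟨h, h0⟩ := mem_t2eKer.mp he.2
      exact ⟨⟨hJ ⟨e, h⟩ h0, he.1⟩, he.2⟩
    have hJM : M ⊓ V a ⊓ t2eKer R ev ≤ V a ⊓ t2eKer R ev :=
      fun e he => ⟨he.1.2, he.2⟩
    haveI : FiniteDimensional k ↥(V a ⊓ t2eKer R ev) :=
      Submodule.finiteDimensional_of_le inf_le_left
    have hSJ : Subalgebra.toSubmodule S ⊓ V a ⊓ t2eKer R ev ≤ V a ⊓ t2eKer R ev :=
      fun e he => ⟨he.1.2, he.2⟩
    have i3 := Submodule.finrank_mono hJS
    have i3' := Submodule.finrank_mono hSJ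
    have i4 := Submodule.finrank_mono hJM
    have i5 := hdim a h1
    omega
  obtain ⟨w, hw, -, hne⟩ := ihbf_block_unit T W h1T hm hpowW hkey
  obtain ⟨v, rfl⟩ := hw
  exact ⟨(v : E), v.2, hMR v.2, hne⟩

end Node

end Fermat.Agent.Ihara
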