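/-
IHARA [B] (B4) (lead): **the swap form of the two-component core**.

`su : T2Setup d σ`, `τ` a ring automorphism of `F` (in the application `φ ∘ w_q` at a finite level
`H`, `φ` a Frobenius lift, `w_q` the Atkin–Lehner involution, which swaps the two components of
the special fibre), `Q` a natural number (`= q`), `ι : σ → σ` (the action of `τ` on the points
over the nodes), such that `τ` preserves `𝒪` and integrality over `K[x]` and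
  `ev (res (τ f)) i = ev (res f) (ι i) ^ Q`,
and such that the blocks of `ev S₁` are contained in the `{i, ι i}`.  Then for a twist by `z` the
gluing invariant of the twist by `τ z · z ^ Q` lies in `S₁`: the gluing invariants of `τ z` are
the `γ_{ι i}^{-Q}` (`ihbf_core`), and therefore the twisted sheaf has a global section reducing to
`1` (`ihbf_core_section`).
-/
import Fermat.Agent.Lib.Ihara.B.Frob.Block
import Fermat.Agent.Lib.T2.Core.Main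
import Fermat.Agent.Lib.T2.Core.Node

set_option autoImplicit false
set_option linter.unusedSectionVars false
set_option linter.style.haveILetI false

namespace Fermat.Agent.Ihara

open Fermat.Agent.T2
open T1 (tbL tbLbar)

variable {K F k Fb : Type*} [Field K] [Field F] [Algebra K F] [Field k] [CommRing Fb] [Algebra k Fb]
variable {d : T2Base K F k Fb} {σ : Type*} [Fintype σ] {su : T2Setup d σ}

/-- a twist contains an element whose reduction vanishes at none of the points over the nodes -/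
theorem ihbf_twist_unit [DecidableEq σ] (tw : T2Twist su) :
    ∃ (g : F) (hg : g ∈ tw.L1) (hgO : g ∈ d.Ov),
      ∀ i, su.ev ⟨d.res ⟨g, hgO⟩, tw.res_mem_R hg hgO⟩ i ≠ 0 := by
  obtain ⟨v, hvM, hvR, hne⟩ := ihbf_node_unit (t2R (k := k) su.xb) su.ev su.S1 su.S1_le_R su.hJ
    tw.Mbar tw.Mbar_le_R su.m_pos (fun v hv => tw.pow_mem_S1 hv)
    (t2Lt (k := k) su.xb su.xib) (t2Lt_mono _ _) su.finLt
    (fun r hr => by
      obtain ⟨a, ha⟩ := su.exb r hr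
      exact ⟨a, hr, ha⟩)
    (max su.a0 su.e)
    (fun a ha => tw.finrank_le a ((le_max_left _ _).trans ha) ((le_max_right _ _).trans ha))
  obtain ⟨g, hg, rfl⟩ := hvM
  exact ⟨g, hg.1, hg.2, hne⟩

/-- **the swap form of the two-component core**: the gluing invariant of `τ z · z ^ Q` lies in
`S₁` -/
theorem ihbf_core [DecidableEq σ] (τ : F ≃+* F) (Q : ℕ) (ι : σ → σ)
    (hτOv : ∀ f ∈ d.Ov, τ f ∈ d.Ov)
    (hτint : ∀ f ∈ t2Int (K := K) su.x, τ f ∈ t2Int (K := K) su.x)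
    (hev : ∀ (f : F) (hf : f ∈ d.Ov) (h1 : d.res ⟨f, hf⟩ ∈ t2R (k := k) su.xb)
      (h2 : d.res ⟨τ f, hτOv f hf⟩ ∈ t2R (k := k) su.xb) (i : σ),
      su.ev ⟨d.res ⟨τ f, hτOv f hf⟩, h2⟩ i = su.ev ⟨d.res ⟨f, hf⟩, h1⟩ (ι i) ^ Q)
    (hblk : ∀ i j : σ, (∀ r : ↥(t2R (k := k) su.xb), (r : Fb) ∈ su.S1 → su.ev r i = su.ev r j) →
      j = i ∨ (j = ι i ∧ i = ι j))
    (tw₀ tw₁ tw' : T2Twist su) (hy₁ : tw₁.y = τ tw₀.y) (hy' : tw'.y = tw₁.y * tw₀.y ^ Q)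
    (hL₁ : ∀ s : F, s ^ su.m * tw₁.y ∈ t2Int (K := K) su.x → s ∈ tw₁.L1) :
    tw'.Mbar ≤ Subalgebra.toSubmodule su.S1 := by
  classical
  rintro _ ⟨s, hs, rfl⟩
  obtain ⟨g, hg, hgO, hne⟩ := ihbf_twist_unit tw₀
  obtain ⟨n, hn⟩ : ∃ n, su.m = n + 1 := ⟨su.m - 1, by have := su.m_pos; omega⟩
  -- `τ g ∈ L1(τ z)`
  have hτgL : τ g ∈ tw₁.L1 := by
    apply hL₁
    rw [hy₁, ← map_pow, ← map_mul]
    exact hτint _ (tw₀.pow1 g hg)
  have hτgO : τ g ∈ d.Ov := hτOv g hgO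
  -- the elements of `R`
  have haR : d.res ⟨g, hgO⟩ ∈ t2R (k := k) su.xb := tw₀.res_mem_R hg hgO
  have hbR : d.res ⟨τ g, hτgO⟩ ∈ t2R (k := k) su.xb := tw₁.res_mem_R hτgL hτgO
  have hrR : d.res ⟨s, hs.2⟩ ∈ t2R (k := k) su.xb := tw'.res_mem_R hs.1 hs.2
  set a : ↥(t2R (k := k) su.xb) := ⟨d.res ⟨g, hgO⟩, haR⟩ with ha
  set b : ↥(t2R (k := k) su.xb) := ⟨d.res ⟨τ g, hτgO⟩, hbR⟩ with hb
  set r : ↥(t2R (k := k) su.xb) := ⟨d.res ⟨s, hs.2⟩, hrR⟩ with hr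
  have hevb : ∀ i, su.ev b i = su.ev a (ι i) ^ Q := fun i => hev g hgO haR hbR i
  -- the multiplier `t`
  have htO : (τ g * g ^ Q) ^ n * tw'.y ∈ d.Ov :=
    d.Ov.mul_mem (d.Ov.pow_mem (d.Ov.mul_mem hτgO (d.Ov.pow_mem hgO Q)) n) tw'.hy
  have hstO : s * ((τ g * g ^ Q) ^ n * tw'.y) ∈ d.Ov := d.Ov.mul_mem hs.2 htO
  have hstI : s * ((τ g * g ^ Q) ^ n * tw'.y) ∈ t2Int (K := K) su.x := by
    have h1 := tw'.pow1 s hs.1
    have h2 := tw₁.pow1 (τ g) hτgL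
    have h3 := tw₀.pow1 g hg
    have h4 : (s * ((τ g * g ^ Q) ^ n * tw'.y)) ^ su.m
        = (s ^ su.m * tw'.y) * (((τ g) ^ su.m * tw₁.y) ^ n * ((g ^ su.m * tw₀.y) ^ Q) ^ n) := by
      rw [hy', hn]
      ring
    have h5 : (s * ((τ g * g ^ Q) ^ n * tw'.y)) ^ su.m ∈ t2Int (K := K) su.x := by
      rw [h4]
      exact t2Int_mul h1 (t2Int_mul (IsIntegral.pow h2 n) (IsIntegral.pow (IsIntegral.pow h3 Q) n))
    exact IsIntegral.of_pow su.m_pos h5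
  have hstS : d.res ⟨s * ((τ g * g ^ Q) ^ n * tw'.y), hstO⟩ ∈ su.S1 :=
    ⟨_, ⟨hstI, hstO⟩, rfl⟩
  have hstR : d.res ⟨s * ((τ g * g ^ Q) ^ n * tw'.y), hstO⟩ ∈ t2R (k := k) su.xb :=
    su.S1_le_R hstS
  have hprod : (⟨d.res ⟨s * ((τ g * g ^ Q) ^ n * tw'.y), hstO⟩, hstR⟩ : ↥(t2R (k := k) su.xb))
      = r * (b * a ^ Q) ^ n := by
    apply Subtype.ext
    show d.res ⟨s * ((τ g * g ^ Q) ^ n * tw'.y), hstO⟩
      = d.res ⟨s, hs.2⟩ * (d.res ⟨τ g, hτgO⟩ * d.res ⟨g, hgO⟩ ^ Q) ^ n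
    rw [d.res_mul' hs.2 htO,
      d.res_mul' (d.Ov.pow_mem (d.Ov.mul_mem hτgO (d.Ov.pow_mem hgO Q)) n) tw'.hy,
      d.res_pow' (d.Ov.mul_mem hτgO (d.Ov.pow_mem hgO Q)) n,
      d.res_mul' hτgO (d.Ov.pow_mem hgO Q), d.res_pow' hgO Q, tw'.hy1, mul_one]
  -- it suffices to show that `ev r` is constant on the blocks
  set S' : Subalgebra k ↥(t2R (k := k) su.xb) :=
    Subalgebra.comap (t2R (k := k) su.xb).val su.S1 with hS'
  have hJ' : ∀ r' : ↥(t2R (k := k) su.xb), su.ev r' = 0 → r' ∈ S' := fun r' h0 => su.hJ r' h0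
  have hmemS' : ∀ r' : ↥(t2R (k := k) su.xb), r' ∈ S' ↔ (r' : Fb) ∈ su.S1 := fun _ => Iff.rfl
  suffices hrS : r ∈ S' from (hmemS' r).mp hrS
  refine (t2n_mem_S_iff su.ev S' hJ' r).mpr ?_
  refine t2n_mem_of_const (S'.map su.ev) (su.ev r) ?_
  intro i j hij
  rw [t2nSetoid_r] at hij
  have hij' : ∀ r' : ↥(t2R (k := k) su.xb), (r' : Fb) ∈ su.S1 → su.ev r' i = su.ev r' j :=
    fun r' hr' => hij _ ⟨r', (hmemS' r').mpr hr', rfl⟩
  rcases hblk i j hij' with rfl | ⟨hj, hi⟩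
  · rfl
  · have h1 := hij' ⟨_, hstR⟩ hstS
    have e : su.ev (r * (b * a ^ Q) ^ n) = su.ev r * (su.ev b * su.ev a ^ Q) ^ n :=
      (map_mul su.ev r ((b * a ^ Q) ^ n)).trans (congrArg (fun t => su.ev r * t)
        ((map_pow su.ev (b * a ^ Q) n).trans (congrArg (fun t => t ^ n)
          ((map_mul su.ev b (a ^ Q)).trans (congrArg (fun t => su.ev b * t)
            (map_pow su.ev a Q))))))
    rw [hprod, e] at h1
    simp only [Pi.mul_apply, Pi.pow_apply] at h1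
    rw [hevb i, hevb j, ← hi, hj] at h1
    have hne1 : su.ev a (ι i) ≠ 0 := hne (ι i)
    have hne2 : su.ev a i ≠ 0 := hne i
    have hne3 : (su.ev a (ι i) ^ Q * su.ev a i ^ Q) ^ n ≠ 0 :=
      pow_ne_zero _ (mul_ne_zero (pow_ne_zero _ hne1) (pow_ne_zero _ hne2))
    have h2 : (su.ev a i ^ Q * su.ev a (ι i) ^ Q) ^ n
        = (su.ev a (ι i) ^ Q * su.ev a i ^ Q) ^ n := by rw [mul_comm]
    rw [h2] at h1
    rw [hj]
    exact mul_right_cancel₀ hne3 h1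

/-- **the swap form of the two-component core**: the twisted sheaf of `τ z · z ^ Q` has a global
section reducing to `1` -/
theorem ihbf_core_section [DecidableEq σ] (τ : F ≃+* F) (Q : ℕ) (ι : σ → σ)
    (hτOv : ∀ f ∈ d.Ov, τ f ∈ d.Ov)
    (hτint : ∀ f ∈ t2Int (K := K) su.x, τ f ∈ t2Int (K := K) su.x)
    (hev : ∀ (f : F) (hf : f ∈ d.Ov) (h1 : d.res ⟨f, hf⟩ ∈ t2R (k := k) su.xb)
      (h2 : d.res ⟨τ f, hτOv f hf⟩ ∈ t2R (k := k) su.xb) (i : σ),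
      su.ev ⟨d.res ⟨τ f, hτOv f hf⟩, h2⟩ i = su.ev ⟨d.res ⟨f, hf⟩, h1⟩ (ι i) ^ Q)
    (hblk : ∀ i j : σ, (∀ r : ↥(t2R (k := k) su.xb), (r : Fb) ∈ su.S1 → su.ev r i = su.ev r j) →
      j = i ∨ (j = ι i ∧ i = ι j))
    (tw₀ tw₁ tw' : T2Twist su) (hy₁ : tw₁.y = τ tw₀.y) (hy' : tw'.y = tw₁.y * tw₀.y ^ Q)
    (hL₁ : ∀ s : F, s ^ su.m * tw₁.y ∈ t2Int (K := K) su.x → s ∈ tw₁.L1)
    (h1ne : (1 : Fb) ≠ 0) :
    ∃ s : F, s ≠ 0 ∧ IsIntegral ↥(Algebra.adjoin K {su.x}) (s ^ su.m * tw'.y) ∧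
      IsIntegral ↥(Algebra.adjoin K {su.x⁻¹}) (s ^ su.m * tw'.y) := by
  obtain ⟨s, hs1, hs2, hsO, hres⟩ :=
    tw'.exists_section (ihbf_core τ Q ι hτOv hτint hev hblk tw₀ tw₁ tw' hy₁ hy' hL₁)
  refine ⟨s, ?_, tw'.pow1 s hs1, tw'.pow2 s hs2⟩
  rintro rfl
  rw [d.res_zero'] at hres
  exact h1ne hres.symm

end Fermat.Agent.Ihara
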