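/-
IHARA [B] (B4) (lead): **the swap core at the level `H` and the automorphism `τ = φ ∘ w_q`**.

Adaptation of `Lib/T2/F/ToricCore.lean` (helper5) and of the first half of
`Lib/T2/F/ToricMain.lean` (helper4) with `τ = φ ∘ w_q` (in place of `φ²`), `Q = q` (in place of
`q²`) and the swap core `ihbf_core_section` (in place of `t2ft_core`):
* `ihbf_level`: at the level `H`: `tbPhiF (τ z · z ^ Q)` is an `m`-th power in `F_K`;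
* `ihbf_group_identity`;
* `ihbfTau`, `ihbf_w_Ov`, `ihbf_w_res_fst/_snd/_one`, `ihbf_tau_Ov`, `ihbf_w_t2gaX`;
* `ihbf_hev`: the evaluation hypothesis for `τ = φ ∘ w_q` from (SW).
-/
import Mathlib
import Fermat.Agent.Lib.T2.F.ToricMain
import Fermat.Agent.Lib.Ihara.B.Frob.Core
import Fermat.Agent.Lib.Ihara.B.Frob.Defs

set_option autoImplicit false
set_option linter.unusedSectionVars false
set_option linter.unusedVariables false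
set_option linter.style.haveILetI false

namespace Fermat.Agent.Ihara

open ModularCurve Module AlgebraicCurve IntermediateField Fermat.Agent.Curve
  Fermat.Agent.T1 Fermat.Agent.TW Fermat.Agent.S24Lib HahnSeries Fermat.Agent.T2

local notation "Qb" => AlgebraicClosure ℚ
local notation "GQ" => (AlgebraicClosure ℚ ≃ₐ[ℚ] AlgebraicClosure ℚ)

attribute [local instance] t2i_dvr t2i_isAlgClosed t2i_charP t2i_fact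
attribute [local instance] t2iAlgebra t2i_isScalarTower

section Level

set_option synthInstance.maxHeartbeats 400000 in
set_option maxHeartbeats 4000000 in
/-- **the swap core at level `H`**: `τ z · z ^ Q` is an `m`-th power over `ℚ̄` -/
theorem ihbf_level (𝔓 : FFPlace) (N : ℕ) [NeZero N] (H : Subgroup 𝔓.I)
    {k Fb : Type*} [Field k] [CommRing Fb] [Algebra k Fb]
    {d : T2Base ↥(tbFix 𝔓 H) ↥(tbLevF 𝔓 N H) k Fb} {σ' : Type*} [Fintype σ'] [DecidableEq σ']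
    (su : T2Setup d σ')
    (hX : IsFunctionFieldGen Qb ↥(modularFunctionFieldBar N) (tbPhiF 𝔓 N H su.x))
    (hn : (su.n : ℤ) = finrank ↥Qb⟮tbPhiF 𝔓 N H su.x⟯ ↥(modularFunctionFieldBar N))
    (hc : su.c = 1 - CurveP.genusR Qb ↥(modularFunctionFieldBar N))
    (h1ne : (1 : Fb) ≠ 0) (Q : ℕ) (ι : σ' → σ')
    (τ : ↥(tbLevF 𝔓 N H) ≃+* ↥(tbLevF 𝔓 N H))
    (hτOv : ∀ f ∈ d.Ov, τ f ∈ d.Ov)
    (hτint : ∀ f ∈ t2Int (K := ↥(tbFix 𝔓 H)) su.x, τ f ∈ t2Int (K := ↥(tbFix 𝔓 H)) su.x)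
    (hev : ∀ (f : ↥(tbLevF 𝔓 N H)) (hf : f ∈ d.Ov)
      (h1 : d.res ⟨f, hf⟩ ∈ t2R (k := k) su.xb)
      (h2 : d.res ⟨τ f, hτOv f hf⟩ ∈ t2R (k := k) su.xb) (i : σ'),
      su.ev ⟨d.res ⟨τ f, hτOv f hf⟩, h2⟩ i = su.ev ⟨d.res ⟨f, hf⟩, h1⟩ (ι i) ^ Q)
    (hblk : ∀ i j : σ',
      (∀ r : ↥(t2R (k := k) su.xb), (r : Fb) ∈ su.S1 → su.ev r i = su.ev r j) →
      j = i ∨ (j = ι i ∧ i = ι j))
    {z : ↥(tbLevF 𝔓 N H)} (hz0 : z ≠ 0) (hz : z ∈ d.Ov)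
    (hz1 : d.res ⟨z, hz⟩ = 1) (hτz1 : d.res ⟨τ z, hτOv z hz⟩ = 1)
    (hdiv : ∀ v : Place Qb ↥(modularFunctionFieldBar N), (su.m : ℤ) ∣ v.ord (tbPhiF 𝔓 N H z))
    (hdivτ : ∀ v : Place Qb ↥(modularFunctionFieldBar N),
      (su.m : ℤ) ∣ v.ord (tbPhiF 𝔓 N H (τ z))) :
    ∃ g : ↥(modularFunctionFieldBar N), g ^ su.m = tbPhiF 𝔓 N H (τ z * z ^ Q) := by
  have hτz : τ z ∈ d.Ov := hτOv z hz
  have hτz0 : τ z ≠ 0 := (map_ne_zero τ).mpr hz0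
  have hzQ0 : z ^ Q ≠ 0 := pow_ne_zero Q hz0
  have hzQO : z ^ Q ∈ d.Ov := d.Ov.pow_mem hz Q
  have hzQ1 : d.res ⟨z ^ Q, hzQO⟩ = 1 := by
    rw [d.res_pow' hz Q, hz1, one_pow]
  have hu0 : τ z * z ^ Q ≠ 0 := mul_ne_zero hτz0 hzQ0
  have huO : τ z * z ^ Q ∈ d.Ov := d.Ov.mul_mem hτz hzQO
  have hu1 : d.res ⟨τ z * z ^ Q, huO⟩ = 1 := by
    rw [d.res_mul' hτz hzQO, hτz1, hzQ1, one_mul]
  have hY : tbPhiF 𝔓 N H z ≠ 0 := fun h => hz0 (tbPhiF_injective 𝔓 N H (by rw [h, map_zero]))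
  have hY' : tbPhiF 𝔓 N H (τ z) ≠ 0 :=
    fun h => hτz0 (tbPhiF_injective 𝔓 N H (by rw [h, map_zero]))
  have hdivQ : ∀ v : Place Qb ↥(modularFunctionFieldBar N),
      (su.m : ℤ) ∣ v.ord (tbPhiF 𝔓 N H (z ^ Q)) := by
    intro v
    rw [map_pow, ← zpow_natCast, v.ord_zpow]
    exact Dvd.dvd.mul_left (hdiv v) _
  have hdivu : ∀ v : Place Qb ↥(modularFunctionFieldBar N),
      (su.m : ℤ) ∣ v.ord (tbPhiF 𝔓 N H (τ z * z ^ Q)) := by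
    intro v
    have hYQ : tbPhiF 𝔓 N H (z ^ Q) ≠ 0 := by
      rw [map_pow]
      exact pow_ne_zero Q hY
    rw [map_mul, v.ord_mul hY' hYQ]
    exact dvd_add (hdivτ v) (hdivQ v)
  obtain ⟨tw₀, hy₀, -, -⟩ := t2g_exists_twist 𝔓 N H su hX hn hc hz0 hz hz1 hdiv
  obtain ⟨tw₁, hy₁, hL₁, -⟩ := t2g_exists_twist 𝔓 N H su hX hn hc hτz0 hτz hτz1 hdivτ
  obtain ⟨tw', hy', -, -⟩ := t2g_exists_twist 𝔓 N H su hX hn hc hu0 huO hu1 hdivu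
  obtain ⟨s, hs0, hs1, hs2⟩ := ihbf_core_section τ Q ι hτOv hτint hev hblk tw₀ tw₁ tw'
    (by rw [hy₁, hy₀]) (by rw [hy', hy₁, hy₀])
    (fun s hs => hL₁ s (by rw [← hy₁]; exact hs)) h1ne
  rw [hy'] at hs1 hs2
  exact t2g_exists_root_mod 𝔓 N H hX hu0 su.m_pos hdivu hs0 hs1 hs2

end Level

/-- the group-theoretic identity behind `φ y · (w y) ^ Q = t ^ m` -/
theorem ihbf_group_identity {U : Type*} [CommGroup U] (S W : U →* U) (hW : ∀ u, W (W u) = u)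
    (y η g Z : U) (m Q : ℕ) (hZ : Z = W y * η ^ m) (hg : g ^ m = S (W Z) * Z ^ Q) :
    S y * (W y) ^ Q = (g * (S (W η))⁻¹ * (η ^ Q)⁻¹) ^ m := by
  subst hZ
  rw [mul_pow, mul_pow, hg]
  simp only [map_mul, map_pow, mul_pow, inv_pow, hW]
  have h2 : (η ^ Q) ^ m = (η ^ m) ^ Q := by rw [← pow_mul, ← pow_mul, mul_comm]
  rw [h2]
  have key : ∀ a b c d : U, a * c = a * b * (c * d) * b⁻¹ * d⁻¹ := by
    intro a b c d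
    have h1 : a * b * (c * d) * b⁻¹ * d⁻¹ = a * c * (b * b⁻¹) * (d * d⁻¹) := by
      simp only [mul_assoc, mul_comm, mul_left_comm]
    rw [h1, mul_inv_cancel, mul_inv_cancel, mul_one, mul_one]
  exact key _ _ _ _

noncomputable section

section Main

variable (𝔓 : FFPlace) (N' : ℕ) [NeZero N'] (h : ¬ 𝔓.p ∣ N') (H : Subgroup 𝔓.I) [H.FiniteIndex]
  (φ : GQ) (hφ : T2fsStab 𝔓 H φ)

/-- `τ = φ ∘ w_q` at the level `H` -/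
def ihbfTau : ↥(tbLevF 𝔓 (N' * 𝔓.p) H) ≃+* ↥(tbLevF 𝔓 (N' * 𝔓.p) H) :=
  ((t2wLev 𝔓 H N' 𝔓.p h : ↥(tbLevF 𝔓 (N' * 𝔓.p) H) ≃ₐ[↥(tbFix 𝔓 H)] ↥(tbLevF 𝔓 (N' * 𝔓.p) H)) :
    ↥(tbLevF 𝔓 (N' * 𝔓.p) H) ≃+* ↥(tbLevF 𝔓 (N' * 𝔓.p) H)).trans
    (t2fsF 𝔓 H φ hφ (N' * 𝔓.p))

theorem ihbfTau_apply (f : ↥(tbLevF 𝔓 (N' * 𝔓.p) H)) :
    ihbfTau 𝔓 N' h H φ hφ f = t2fsF 𝔓 H φ hφ (N' * 𝔓.p) (t2wLev 𝔓 H N' 𝔓.p h f) := rfl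

/-- `w_q` preserves the ring `𝒪` of the two-valuation base -/
theorem ihbf_w_Ov (f : ↥(tbLevF 𝔓 (N' * 𝔓.p) H)) (hf : f ∈ (t2iBase2Fix 𝔓 H N' h).Ov) :
    t2wLev 𝔓 H N' 𝔓.p h f ∈ (t2iBase2Fix 𝔓 H N' h).Ov := by
  rw [mem_t2iBase2Fix_Ov] at hf ⊢
  refine ⟨hf.2, ?_⟩
  rw [t2wLev_t2wLev]
  exact hf.1

/-- `w_q` swaps the two components of `res`, first component -/
theorem ihbf_w_res_fst (f : ↥(tbLevF 𝔓 (N' * 𝔓.p) H)) (hf : f ∈ (t2iBase2Fix 𝔓 H N' h).Ov) :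
    ((((t2iBase2Fix 𝔓 H N' h).res ⟨t2wLev 𝔓 H N' 𝔓.p h f, ihbf_w_Ov 𝔓 N' h H f hf⟩).1 :
      ↥(tbBarF 𝔓 N')) : LaurentSeries (IsLocalRing.ResidueField ↥𝔓.P))
      = ((((t2iBase2Fix 𝔓 H N' h).res ⟨f, hf⟩).2 : ↥(tbBarF 𝔓 N')) :
          LaurentSeries (IsLocalRing.ResidueField ↥𝔓.P)) := by
  rw [coe_t2iBase2Fix_res_fst, coe_t2iBase2Fix_res_snd]

/-- `w_q` swaps the two components of `res`, second component -/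
theorem ihbf_w_res_snd (f : ↥(tbLevF 𝔓 (N' * 𝔓.p) H)) (hf : f ∈ (t2iBase2Fix 𝔓 H N' h).Ov) :
    ((((t2iBase2Fix 𝔓 H N' h).res ⟨t2wLev 𝔓 H N' 𝔓.p h f, ihbf_w_Ov 𝔓 N' h H f hf⟩).2 :
      ↥(tbBarF 𝔓 N')) : LaurentSeries (IsLocalRing.ResidueField ↥𝔓.P))
      = ((((t2iBase2Fix 𝔓 H N' h).res ⟨f, hf⟩).1 : ↥(tbBarF 𝔓 N')) :
          LaurentSeries (IsLocalRing.ResidueField ↥𝔓.P)) := by
  rw [coe_t2iBase2Fix_res_snd, coe_t2iBase2Fix_res_fst, t2wLev_t2wLev]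

/-- `res (w z) = 1` when `res z = 1` -/
theorem ihbf_w_res_one (z : ↥(tbLevF 𝔓 (N' * 𝔓.p) H)) (hz : z ∈ (t2iBase2Fix 𝔓 H N' h).Ov)
    (hz1 : (t2iBase2Fix 𝔓 H N' h).res ⟨z, hz⟩ = 1) :
    (t2iBase2Fix 𝔓 H N' h).res ⟨t2wLev 𝔓 H N' 𝔓.p h z, ihbf_w_Ov 𝔓 N' h H z hz⟩ = 1 := by
  apply Prod.ext
  · apply Subtype.ext
    rw [ihbf_w_res_fst 𝔓 N' h H z hz, hz1]
    rfl
  · apply Subtype.ext
    rw [ihbf_w_res_snd 𝔓 N' h H z hz, hz1]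
    rfl

/-- `τ` preserves the ring `𝒪` -/
theorem ihbf_tau_Ov (f : ↥(tbLevF 𝔓 (N' * 𝔓.p) H)) (hf : f ∈ (t2iBase2Fix 𝔓 H N' h).Ov) :
    ihbfTau 𝔓 N' h H φ hφ f ∈ (t2iBase2Fix 𝔓 H N' h).Ov :=
  t2fb_Ov 𝔓 N' h H φ hφ _ (ihbf_w_Ov 𝔓 N' h H f hf)

/-- `w_q` fixes the symmetric chart -/
theorem ihbf_w_t2gaX (Q : ℕ) :
    t2wLev 𝔓 H N' 𝔓.p h (t2gaX 𝔓 H N' h Q) = t2gaX 𝔓 H N' h Q := by
  unfold t2gaX
  rw [map_mul, t2wLev_t2wLev]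
  exact mul_comm _ _

/-- **the evaluation hypothesis of `ihbf_level`** for `τ = φ ∘ w_q` from (SW) -/
theorem ihbf_hev (hF : 𝔓.P.IsFrobeniusAt φ 𝔓.p) {n : ℕ}
    (su : T2Setup (t2iBase2Fix 𝔓 H N' h) (Fin n)) (ι : Fin n → Fin n)
    (hSW : ∀ r r' : ↥(t2R (k := IsLocalRing.ResidueField ↥𝔓.P) su.xb),
      (((r' : ↥(tbBarF 𝔓 N') × ↥(tbBarF 𝔓 N')).1 : ↥(tbBarF 𝔓 N')) :
          LaurentSeries (IsLocalRing.ResidueField ↥𝔓.P)) =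
        coeffMap (frobenius (IsLocalRing.ResidueField ↥𝔓.P) 𝔓.p)
          (((r : ↥(tbBarF 𝔓 N') × ↥(tbBarF 𝔓 N')).2 : ↥(tbBarF 𝔓 N')) :
            LaurentSeries (IsLocalRing.ResidueField ↥𝔓.P)) →
      (((r' : ↥(tbBarF 𝔓 N') × ↥(tbBarF 𝔓 N')).2 : ↥(tbBarF 𝔓 N')) :
          LaurentSeries (IsLocalRing.ResidueField ↥𝔓.P)) =
        coeffMap (frobenius (IsLocalRing.ResidueField ↥𝔓.P) 𝔓.p)
          (((r : ↥(tbBarF 𝔓 N') × ↥(tbBarF 𝔓 N')).1 : ↥(tbBarF 𝔓 N')) :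
            LaurentSeries (IsLocalRing.ResidueField ↥𝔓.P)) →
      ∀ i, su.ev r' i = su.ev r (ι i) ^ 𝔓.p)
    (f : ↥(tbLevF 𝔓 (N' * 𝔓.p) H)) (hf : f ∈ (t2iBase2Fix 𝔓 H N' h).Ov)
    (h1 : (t2iBase2Fix 𝔓 H N' h).res ⟨f, hf⟩ ∈ t2R (k := IsLocalRing.ResidueField ↥𝔓.P) su.xb)
    (h2 : (t2iBase2Fix 𝔓 H N' h).res
      ⟨ihbfTau 𝔓 N' h H φ hφ f, ihbf_tau_Ov 𝔓 N' h H φ hφ f hf⟩
        ∈ t2R (k := IsLocalRing.ResidueField ↥𝔓.P) su.xb) (i : Fin n) :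
    su.ev ⟨(t2iBase2Fix 𝔓 H N' h).res
        ⟨ihbfTau 𝔓 N' h H φ hφ f, ihbf_tau_Ov 𝔓 N' h H φ hφ f hf⟩, h2⟩ i
      = su.ev ⟨(t2iBase2Fix 𝔓 H N' h).res ⟨f, hf⟩, h1⟩ (ι i) ^ 𝔓.p := by
  refine hSW ⟨_, h1⟩ ⟨_, h2⟩ ?_ ?_ i
  · show ((((t2iBase2Fix 𝔓 H N' h).res ⟨t2fsF 𝔓 H φ hφ (N' * 𝔓.p) (t2wLev 𝔓 H N' 𝔓.p h f),
        t2fb_Ov 𝔓 N' h H φ hφ _ (ihbf_w_Ov 𝔓 N' h H f hf)⟩).1 : ↥(tbBarF 𝔓 N')) :
      LaurentSeries (IsLocalRing.ResidueField ↥𝔓.P)) = _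
    rw [t2fb_res_fst 𝔓 N' h H φ hφ _ (ihbf_w_Ov 𝔓 N' h H f hf),
      t2fsBar_of_frobenius 𝔓 H φ hφ hF, ihbf_w_res_fst 𝔓 N' h H f hf]
  · show ((((t2iBase2Fix 𝔓 H N' h).res ⟨t2fsF 𝔓 H φ hφ (N' * 𝔓.p) (t2wLev 𝔓 H N' 𝔓.p h f),
        t2fb_Ov 𝔓 N' h H φ hφ _ (ihbf_w_Ov 𝔓 N' h H f hf)⟩).2 : ↥(tbBarF 𝔓 N')) :
      LaurentSeries (IsLocalRing.ResidueField ↥𝔓.P)) = _
    rw [t2fb_res_snd 𝔓 N' h H φ hφ _ (ihbf_w_Ov 𝔓 N' h H f hf),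
      t2fsBar_of_frobenius 𝔓 H φ hφ hF, ihbf_w_res_snd 𝔓 N' h H f hf]

end Main

end

end Fermat.Agent.Ihara
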