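/-
IHARA [B] (B4) (lead): **the unsquared Frobenius relation on the toric part**:
* `ihbf_main`: for a Kummer function `y` coming from a level `H` stable under a Frobenius element
  `φ`, such that `y f₁ ^ m` and `w(y) f₂ ^ m` are Gauss `1`-units: `φ y · (w y) ^ q = t ^ m`
  (normalisation `t2ft_normalise` of `w y` + swap core `ihbf_level`);
* `ihbf_good_of_export : IhbfExport → IhbfGood`;
* **`ihbf_all : IhbfAll`** (with `ihbf_export` and `ihbf_all_of_good`).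
Adaptation of the second half of `Lib/T2/F/ToricMain.lean` (helper4).
-/
import Mathlib
import Fermat.Agent.Lib.Ihara.B.Frob.Tau
import Fermat.Agent.Lib.Ihara.B.Frob.Export
import Fermat.Agent.Lib.Ihara.B.Frob.Level

set_option autoImplicit false
set_option linter.unusedSectionVars false
set_option linter.unusedVariables false
set_option linter.style.haveILetI false

namespace Fermat.Agent.Ihara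

open ModularCurve Module AlgebraicCurve IntermediateField Fermat.Agent.Curve
  Fermat.Agent.T1 Fermat.Agent.TW Fermat.Agent.S24Lib HahnSeries Fermat.Agent.T2

local notation "Qb" => AlgebraicClosure ℚ
local notation "GQ" => (AlgebraicClosure ℚ ≃ₐ[ℚ] AlgebraicClosure ℚ)

attribute [local instance] t2i_dvr t2i_isAlgClosed t2i_charP t2i_fact
attribute [local instance] t2iAlgebra t2i_isScalarTower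

noncomputable section

section Main

variable (𝔓 : FFPlace) (N' : ℕ) [NeZero N'] (h : ¬ 𝔓.p ∣ N') (H : Subgroup 𝔓.I) [H.FiniteIndex]
  (φ : GQ) (hφ : T2fsStab 𝔓 H φ)

/-- the Atkin–Lehner involution on units -/
abbrev ihbfWU : (↥(modularFunctionFieldBar (N' * 𝔓.p)))ˣ →* (↥(modularFunctionFieldBar (N' * 𝔓.p)))ˣ :=
  Units.map ((t2w Qb N' 𝔓.p h :
    ↥(modularFunctionFieldBar (N' * 𝔓.p)) ≃ₐ[Qb] ↥(modularFunctionFieldBar (N' * 𝔓.p))) :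
    ↥(modularFunctionFieldBar (N' * 𝔓.p)) →* ↥(modularFunctionFieldBar (N' * 𝔓.p)))

theorem ihbfWU_ihbfWU (u : (↥(modularFunctionFieldBar (N' * 𝔓.p)))ˣ) :
    ihbfWU 𝔓 N' h (ihbfWU 𝔓 N' h u) = u := by
  apply Units.ext
  exact t2w_t2w Qb N' 𝔓.p h _

include hφ in
set_option maxHeartbeats 16000000 in
/-- **the unsquared relation for a Kummer function coming from the level `H`** -/
theorem ihbf_main [H.Normal] (hF : 𝔓.P.IsFrobeniusAt φ 𝔓.p) {n : ℕ}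
    (su : T2Setup (t2iBase2Fix 𝔓 H N' h) (Fin n)) (ι : Fin n → Fin n) {Q₀ : ℕ} (hQ₀ : 2 ≤ Q₀)
    (hx : su.x = t2gaX 𝔓 H N' h Q₀)
    (hn : (su.n : ℤ) = finrank ↥Qb⟮tbPhiF 𝔓 (N' * 𝔓.p) H su.x⟯
      ↥(modularFunctionFieldBar (N' * 𝔓.p)))
    (hc : su.c = 1 - CurveP.genusR Qb ↥(modularFunctionFieldBar (N' * 𝔓.p)))
    (hSW : ∀ r r' : ↥(t2R (k := IsLocalRing.ResidueField ↥𝔓.P) su.xb),
      (((r' : ↥(tbBarF 𝔓 N') × ↥(tbBarF 𝔓 N')).1 : ↥(tbBarF 𝔓 N')) :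
          LaurentSeries (IsLocalRing.ResidueField ↥𝔓.P)) =
        coeffMap (frobenius (IsLocalRing.ResidueField ↥𝔓.P) 𝔓.p)
          (((r : ↥(tbBarF 𝔓 N') × ↥(tbBarF 𝔓 N')).2 : ↥(tbBarF 𝔓 N')) :
            LaurentSeries (IsLocalRing.ResidueField ↥𝔓.P)) →
      (((r' : ↥(tbBarF 𝔓 N') × ↥(tbBarF 𝔓 N')).2 : ↥(tbBarF 𝔓 N')) :
          LaurentSeries (IsLocalRing.ResidueField ↥𝔓.P)) =
        coeffMap (frobenius (IsLocalRing.ResidueField ↥𝔓.P) 𝔓.p)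
          (((r : ↥(tbBarF 𝔓 N') × ↥(tbBarF 𝔓 N')).1 : ↥(tbBarF 𝔓 N')) :
            LaurentSeries (IsLocalRing.ResidueField ↥𝔓.P)) →
      ∀ i, su.ev r' i = su.ev r (ι i) ^ 𝔓.p)
    (hBL : ∀ i j : Fin n,
      (∀ r : ↥(t2R (k := IsLocalRing.ResidueField ↥𝔓.P) su.xb),
        (r : ↥(tbBarF 𝔓 N') × ↥(tbBarF 𝔓 N')) ∈ su.S1 → su.ev r i = su.ev r j) →
      j = i ∨ (j = ι i ∧ i = ι j))
    {y : (↥(modularFunctionFieldBar (N' * 𝔓.p)))ˣ} (hy : y ∈ tWsub Qb (N' * 𝔓.p) su.m)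
    (fy f₁ f₂ : ↥(tbLevF 𝔓 (N' * 𝔓.p) H))
    (hfy : tbPhiF 𝔓 (N' * 𝔓.p) H fy = (y : ↥(modularFunctionFieldBar (N' * 𝔓.p))))
    (hf₁ : f₁ ≠ 0) (hf₂ : f₂ ≠ 0)
    (hG₁ : TbGauss (tbFixO 𝔓 H) (tbFixRes 𝔓 H)
      ((fy * f₁ ^ su.m : ↥(tbLevF 𝔓 (N' * 𝔓.p) H)) : LaurentSeries ↥(tbFix 𝔓 H)))
    (hρ₁ : tbRhoFun (tbFixO 𝔓 H) (tbFixRes 𝔓 H)
      ((fy * f₁ ^ su.m : ↥(tbLevF 𝔓 (N' * 𝔓.p) H)) : LaurentSeries ↥(tbFix 𝔓 H)) = 1)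
    (hG₂ : TbGauss (tbFixO 𝔓 H) (tbFixRes 𝔓 H)
      ((t2wLev 𝔓 H N' 𝔓.p h fy * f₂ ^ su.m : ↥(tbLevF 𝔓 (N' * 𝔓.p) H)) :
        LaurentSeries ↥(tbFix 𝔓 H)))
    (hρ₂ : tbRhoFun (tbFixO 𝔓 H) (tbFixRes 𝔓 H)
      ((t2wLev 𝔓 H N' 𝔓.p h fy * f₂ ^ su.m : ↥(tbLevF 𝔓 (N' * 𝔓.p) H)) :
        LaurentSeries ↥(tbFix 𝔓 H)) = 1) :
    ∃ t : (↥(modularFunctionFieldBar (N' * 𝔓.p)))ˣ,
      tkrSig (N' * 𝔓.p) φ y * (ihbfWU 𝔓 N' h y) ^ 𝔓.p = t ^ su.m := by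
  classical
  -- the Kronecker input and its two Gauss rings
  have hunit : ∀ (g : ↥(tbLevF 𝔓 (N' * 𝔓.p) H))
      (hg : g ∈ (t2gpInput 𝔓 N' h H (t2gmFrob 𝔓 N')).G),
      (t2gpInput 𝔓 N' h H (t2gmFrob 𝔓 N')).ρ ⟨g, hg⟩ ≠ 0 →
        g⁻¹ ∈ (t2gpInput 𝔓 N' h H (t2gmFrob 𝔓 N')).G :=
    t2gp_unit (tbFixO 𝔓 H) (tbFixRes 𝔓 H) (tbFixRes_surjective 𝔓 H)
      (t2gp_natCast_ne_zero 𝔓 N' h) (t2gpW 𝔓 N' h H) (t2gmFrob 𝔓 N')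
  have hnorm : ∀ f : ↥(tbLevF 𝔓 (N' * 𝔓.p) H), f ≠ 0 → ∃ c : ↥(tbFix 𝔓 H), c ≠ 0 ∧
      ∃ hc : c • f ∈ (t2gpInput 𝔓 N' h H (t2gmFrob 𝔓 N')).G,
        (t2gpInput 𝔓 N' h H (t2gmFrob 𝔓 N')).ρ ⟨c • f, hc⟩ ≠ 0 :=
    t2gp_norm (tbFixO 𝔓 H) (tbFixRes 𝔓 H) (tbFixRes_surjective 𝔓 H)
      (t2gp_natCast_ne_zero 𝔓 N' h) (t2gpW 𝔓 N' h H) (t2gmFrob 𝔓 N')
  obtain ⟨e, he₁, he₂, hρe₁, hρe₂⟩ : ∃ (e : ↥(tbLevF 𝔓 (N' * 𝔓.p) H))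
      (he₁ : e ∈ (t2gpInput 𝔓 N' h H (t2gmFrob 𝔓 N')).G)
      (he₂ : e ∈ (t2gpInput 𝔓 N' h H (t2gmFrob 𝔓 N')).G₂),
      (t2gpInput 𝔓 N' h H (t2gmFrob 𝔓 N')).ρ ⟨e, he₁⟩ = 1 ∧
        (t2gpInput 𝔓 N' h H (t2gmFrob 𝔓 N')).ρG₂ ⟨e, he₂⟩ = 0 :=
    t2gp_exists_e (tbFixO 𝔓 H) (tbFixRes 𝔓 H)
      (tbFixRes_surjective 𝔓 H) (t2gp_natCast_ne_zero 𝔓 N' h) (t2gpW 𝔓 N' h H) (t2gmFrob 𝔓 N')
  have hfy0 : fy ≠ 0 := by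
    rintro rfl
    rw [map_zero] at hfy
    exact y.ne_zero hfy.symm
  -- the function `w y` at the level `H`
  obtain ⟨fw, hfw⟩ : ∃ fw : ↥(tbLevF 𝔓 (N' * 𝔓.p) H), fw = t2wLev 𝔓 H N' 𝔓.p h fy := ⟨_, rfl⟩
  have hfw0 : fw ≠ 0 := by
    rw [hfw]
    exact (map_ne_zero _).mpr hfy0
  have hwfw : t2wLev 𝔓 H N' 𝔓.p h fw = fy := by rw [hfw, t2wLev_t2wLev]
  -- the hypotheses in terms of the two Gauss rings, with the roles of `y` and `w y` exchanged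
  have h₁ : fw * f₂ ^ su.m ∈ (t2gpInput 𝔓 N' h H (t2gmFrob 𝔓 N')).G := by
    rw [hfw]
    exact hG₂
  have hρ₁' : (t2gpInput 𝔓 N' h H (t2gmFrob 𝔓 N')).ρ ⟨fw * f₂ ^ su.m, h₁⟩ = 1 := by
    show taRhoFun (tbFixO 𝔓 H) (tbFixRes 𝔓 H)
      ((fw * f₂ ^ su.m : ↥(tbLevF 𝔓 (N' * 𝔓.p) H)) : LaurentSeries ↥(tbFix 𝔓 H)) = 1
    rw [← tbf_rhoFun_eq, hfw]
    exact hρ₂
  have hw2 : (t2gpInput 𝔓 N' h H (t2gmFrob 𝔓 N')).w (fw * t2wLev 𝔓 H N' 𝔓.p h f₁ ^ su.m)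
      = fy * f₁ ^ su.m := by
    show t2wLev 𝔓 H N' 𝔓.p h (fw * t2wLev 𝔓 H N' 𝔓.p h f₁ ^ su.m) = _
    rw [map_mul, map_pow, t2wLev_t2wLev, hwfw]
  have h₂ : fw * t2wLev 𝔓 H N' 𝔓.p h f₁ ^ su.m ∈ (t2gpInput 𝔓 N' h H (t2gmFrob 𝔓 N')).G₂ := by
    rw [T2kInput.mem_G₂, hw2]
    exact hG₁
  have hρ₂' : (t2gpInput 𝔓 N' h H (t2gmFrob 𝔓 N')).ρG₂
      ⟨fw * t2wLev 𝔓 H N' 𝔓.p h f₁ ^ su.m, h₂⟩ = 1 := by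
    rw [T2kInput.ρG₂_apply]
    show taRhoFun (tbFixO 𝔓 H) (tbFixRes 𝔓 H)
      (((t2gpInput 𝔓 N' h H (t2gmFrob 𝔓 N')).w (fw * t2wLev 𝔓 H N' 𝔓.p h f₁ ^ su.m) :
        ↥(tbLevF 𝔓 (N' * 𝔓.p) H)) : LaurentSeries ↥(tbFix 𝔓 H)) = 1
    rw [hw2, ← tbf_rhoFun_eq]
    exact hρ₁
  have hwf₁ : t2wLev 𝔓 H N' 𝔓.p h f₁ ≠ 0 := (map_ne_zero _).mpr hf₁
  -- simultaneous normalisation
  obtain ⟨η, hη0, hz₁, hz₂, hρz₁, hρz₂⟩ :=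
    t2ft_normalise (t2iBase2Fix 𝔓 H N' h).A (t2iBase2Fix 𝔓 H N' h).resA
      (t2iBase2Fix 𝔓 H N' h).arch (t2iBase2Fix 𝔓 H N' h).resA_eq_zero_iff
      (t2gpInput 𝔓 N' h H (t2gmFrob 𝔓 N')).G (t2gpInput 𝔓 N' h H (t2gmFrob 𝔓 N')).ρ
      (t2gpInput 𝔓 N' h H (t2gmFrob 𝔓 N')).G₂ (t2gpInput 𝔓 N' h H (t2gmFrob 𝔓 N')).ρG₂
      (fun a => ((t2gpInput 𝔓 N' h H (t2gmFrob 𝔓 N')).algebraMap_mem_Ov a).1)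
      (fun a => (t2gpInput 𝔓 N' h H (t2gmFrob 𝔓 N')).ρ_algebraMap a _)
      hnorm
      (fun a => (t2gpInput 𝔓 N' h H (t2gmFrob 𝔓 N')).algebraMap_mem_G₂ a)
      (fun a => (t2gpInput 𝔓 N' h H (t2gmFrob 𝔓 N')).ρG₂_algebraMap a)
      ((t2gpInput 𝔓 N' h H (t2gmFrob 𝔓 N')).normalize_G₂ hnorm)
      e he₁ he₂ hρe₁ hρe₂ su.m fw f₂ (t2wLev 𝔓 H N' 𝔓.p h f₁) hf₂ hwf₁ h₁ hρ₁' h₂ hρ₂'
  generalize hz : fw * η ^ su.m = z at hz₁ hz₂ hρz₁ hρz₂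
  have hz0 : z ≠ 0 := by
    rw [← hz]
    exact mul_ne_zero hfw0 (pow_ne_zero _ hη0)
  have hzOv : z ∈ (t2iBase2Fix 𝔓 H N' h).Ov := ⟨hz₁, hz₂⟩
  have hz1 : (t2iBase2Fix 𝔓 H N' h).res ⟨z, hzOv⟩ = 1 :=
    (t2gpInput 𝔓 N' h H (t2gmFrob 𝔓 N')).res_eq_one hz₁ hz₂ hρz₁ hρz₂
  -- `τ = φ ∘ w` at the level `H`
  obtain ⟨τ, hτ⟩ : ∃ τ, τ = ihbfTau 𝔓 N' h H φ hφ := ⟨_, rfl⟩
  have hτz1 : (t2iBase2Fix 𝔓 H N' h).res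
      ⟨ihbfTau 𝔓 N' h H φ hφ z, ihbf_tau_Ov 𝔓 N' h H φ hφ z hzOv⟩ = 1 :=
    t2fb_res_one 𝔓 N' h H φ hφ _ (ihbf_w_Ov 𝔓 N' h H z hzOv) (ihbf_w_res_one 𝔓 N' h H z hzOv hz1)
  have hφx : t2fsF 𝔓 H φ hφ (N' * 𝔓.p) su.x = su.x := by
    rw [hx]
    exact t2fsF_t2gaX 𝔓 N' h H φ hφ Q₀
  have hwx : t2wLev 𝔓 H N' 𝔓.p h su.x = su.x := by
    rw [hx]
    exact ihbf_w_t2gaX 𝔓 N' h H Q₀
  have hτint : ∀ f ∈ t2Int (K := ↥(tbFix 𝔓 H)) su.x,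
      ihbfTau 𝔓 N' h H φ hφ f ∈ t2Int (K := ↥(tbFix 𝔓 H)) su.x := by
    intro f hf
    have h1 : IsIntegral ↥(Algebra.adjoin ↥(tbFix 𝔓 H) {t2wLev 𝔓 H N' 𝔓.p h su.x})
        (t2wLev 𝔓 H N' 𝔓.p h f) :=
      t2i_isIntegral_algHom ((t2wLev 𝔓 H N' 𝔓.p h : ↥(tbLevF 𝔓 (N' * 𝔓.p) H) ≃ₐ[↥(tbFix 𝔓 H)]
        ↥(tbLevF 𝔓 (N' * 𝔓.p) H)) : ↥(tbLevF 𝔓 (N' * 𝔓.p) H) →ₐ[↥(tbFix 𝔓 H)]
        ↥(tbLevF 𝔓 (N' * 𝔓.p) H)) hf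
    rw [hwx] at h1
    exact t2fsF_isIntegral 𝔓 H φ hφ (N' * 𝔓.p) hφx h1
  have hX : IsFunctionFieldGen Qb ↥(modularFunctionFieldBar (N' * 𝔓.p))
      (tbPhiF 𝔓 (N' * 𝔓.p) H su.x) := by
    rw [hx]
    unfold t2gaX
    rw [t2dg_tbPhiF_chart N' 𝔓.p h hQ₀]
    exact t2dg_isFunctionFieldGen_chart_al N' 𝔓.p h hQ₀
  -- the Kummer functions over `ℚ̄`
  have hη0' : tbPhiF 𝔓 (N' * 𝔓.p) H η ≠ 0 :=
    fun h0 => hη0 (tbPhiF_injective 𝔓 (N' * 𝔓.p) H (by rw [h0, map_zero]))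
  obtain ⟨ηu, hηu⟩ : ∃ ηu : (↥(modularFunctionFieldBar (N' * 𝔓.p)))ˣ,
      (ηu : ↥(modularFunctionFieldBar (N' * 𝔓.p))) = tbPhiF 𝔓 (N' * 𝔓.p) H η :=
    ⟨Units.mk0 _ hη0', rfl⟩
  obtain ⟨Z, hZ⟩ : ∃ Z : (↥(modularFunctionFieldBar (N' * 𝔓.p)))ˣ,
      Z = ihbfWU 𝔓 N' h y * ηu ^ su.m := ⟨_, rfl⟩
  have hΦz : tbPhiF 𝔓 (N' * 𝔓.p) H z
      = ((Z : (↥(modularFunctionFieldBar (N' * 𝔓.p)))ˣ) :
          ↥(modularFunctionFieldBar (N' * 𝔓.p))) := by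
    rw [← hz, map_mul, map_pow, hfw, tbPhiF_t2wLev, hfy, hZ, Units.val_mul,
      Units.val_pow_eq_pow_val, hηu]
    rfl
  have hwyW : ihbfWU 𝔓 N' h y ∈ tWsub Qb (N' * 𝔓.p) su.m :=
    ihbf_w_mem_tWsub N' 𝔓.p h su.m hy
  have hZW : Z ∈ tWsub Qb (N' * 𝔓.p) su.m := by
    rw [hZ]
    exact (tWsub Qb (N' * 𝔓.p) su.m).mul_mem hwyW (tkr_pow_mem_tWsub (N' * 𝔓.p) su.m ηu)
  have hΦτz : tbPhiF 𝔓 (N' * 𝔓.p) H (ihbfTau 𝔓 N' h H φ hφ z)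
      = ((tkrSig (N' * 𝔓.p) φ (ihbfWU 𝔓 N' h Z) :
          (↥(modularFunctionFieldBar (N' * 𝔓.p)))ˣ) :
          ↥(modularFunctionFieldBar (N' * 𝔓.p))) := by
    rw [ihbfTau_apply, tbPhiF_t2fsF, tbPhiF_t2wLev, hΦz]
    rfl
  have hdiv : ∀ v : Place Qb ↥(modularFunctionFieldBar (N' * 𝔓.p)),
      (su.m : ℤ) ∣ v.ord (tbPhiF 𝔓 (N' * 𝔓.p) H z) := by
    intro v
    rw [hΦz]
    exact hZW v
  have hdivτ : ∀ v : Place Qb ↥(modularFunctionFieldBar (N' * 𝔓.p)),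
      (su.m : ℤ) ∣ v.ord (tbPhiF 𝔓 (N' * 𝔓.p) H (ihbfTau 𝔓 N' h H φ hφ z)) := by
    intro v
    rw [hΦτz]
    exact tkrSig_mem_tWsub (N' * 𝔓.p) su.m _ (ihbf_w_mem_tWsub N' 𝔓.p h su.m hZW) v
  -- the core
  have h1ne : (1 : ↥(tbBarF 𝔓 N') × ↥(tbBarF 𝔓 N')) ≠ 0 := by
    intro h0
    have := congrArg Prod.fst h0
    exact one_ne_zero this
  obtain ⟨g, hg⟩ := ihbf_level 𝔓 (N' * 𝔓.p) H su hX hn hc h1ne 𝔓.p ι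
    (ihbfTau 𝔓 N' h H φ hφ)
    (fun f hf => ihbf_tau_Ov 𝔓 N' h H φ hφ f hf) hτint
    (fun f hf h1 h2 i => ihbf_hev 𝔓 N' h H φ hφ hF su ι hSW f hf h1 h2 i) hBL
    hz0 hzOv hz1 hτz1 hdiv hdivτ
  have hg0 : g ≠ 0 := by
    rintro rfl
    rw [zero_pow su.m_pos.ne'] at hg
    have h2 : ihbfTau 𝔓 N' h H φ hφ z * z ^ 𝔓.p = 0 :=
      tbPhiF_injective 𝔓 (N' * 𝔓.p) H (by rw [← hg, map_zero])
    exact mul_ne_zero ((map_ne_zero _).mpr hz0) (pow_ne_zero _ hz0) h2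
  obtain ⟨gu, hgu⟩ : ∃ gu : (↥(modularFunctionFieldBar (N' * 𝔓.p)))ˣ,
      (gu : ↥(modularFunctionFieldBar (N' * 𝔓.p))) = g := ⟨Units.mk0 g hg0, rfl⟩
  have hgZ : gu ^ su.m = tkrSig (N' * 𝔓.p) φ (ihbfWU 𝔓 N' h Z) * Z ^ 𝔓.p := by
    apply Units.ext
    rw [Units.val_pow_eq_pow_val, hgu, hg, map_mul, hΦτz, map_pow, hΦz, Units.val_mul,
      Units.val_pow_eq_pow_val]
  exact ⟨gu * (tkrSig (N' * 𝔓.p) φ (ihbfWU 𝔓 N' h ηu))⁻¹ * (ηu ^ 𝔓.p)⁻¹,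
    ihbf_group_identity (tkrSig (N' * 𝔓.p) φ) (ihbfWU 𝔓 N' h) (ihbfWU_ihbfWU 𝔓 N' h)
      y ηu gu Z su.m 𝔓.p hZ hgZ⟩

end Main

set_option maxHeartbeats 16000000 in
/-- **the unsquared relation at the good levels from the export of T2-C** -/
theorem ihbf_good_of_export (hE : IhbfExport) : IhbfGood := by
  classical
  intro N' q _ hq h h49 A hA φ hF m hm hm0 y hy hs₁ hs₂
  obtain ⟨s₁, hs₁⟩ := hs₁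
  obtain ⟨s₂, hs₂⟩ := hs₂
  set 𝔓 : FFPlace := ⟨A, q, hq.out, hA⟩ with h𝔓
  -- constants are `m`-th powers
  obtain ⟨S₁, a₁, b₁, hab₁, hb₁, hrep₁⟩ := t2fg_absorb (N' * q) A hm0 y s₁ hs₁
  obtain ⟨S₂, a₂, b₂, hab₂, hb₂, hrep₂⟩ := t2fg_absorb (N' * q) A hm0 _ s₂ hs₂
  -- the level
  obtain ⟨H, hHfin, hHnorm, hstab, hT⟩ := t2fs_exists_level 𝔓 (N' * q)
    {(y : ↥(modularFunctionFieldBar (N' * q))), (S₁ : ↥(modularFunctionFieldBar (N' * q))),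
      (S₂ : ↥(modularFunctionFieldBar (N' * q)))}
  haveI := hHfin
  haveI := hHnorm
  obtain ⟨fy, hfy⟩ := hT (y : ↥(modularFunctionFieldBar (N' * q))) (by simp)
  obtain ⟨f₁, hf₁⟩ := hT (S₁ : ↥(modularFunctionFieldBar (N' * q))) (by simp)
  obtain ⟨f₂, hf₂⟩ := hT (S₂ : ↥(modularFunctionFieldBar (N' * q))) (by simp)
  have hf₁0 : f₁ ≠ 0 := by
    rintro rfl
    rw [map_zero] at hf₁
    exact S₁.ne_zero hf₁.symm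
  have hf₂0 : f₂ ≠ 0 := by
    rintro rfl
    rw [map_zero] at hf₂
    exact S₂.ne_zero hf₂.symm
  -- the setup
  obtain ⟨Q₀, hQ₀, hall⟩ := hE 𝔓 N' h h49 m hm
  obtain ⟨n, su, ι, hsm, hx, hn, hc, hSW, hBL⟩ := hall H
  subst hsm
  have hφ : T2fsStab 𝔓 H φ := hstab φ hF.mem_decompositionSubgroup
  -- Gauss descent
  have hΦ₁ : tbPhiF 𝔓 (N' * q) H (fy * f₁ ^ su.m)
      = ((y * S₁ ^ su.m : (↥(modularFunctionFieldBar (N' * q)))ˣ) :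
          ↥(modularFunctionFieldBar (N' * q))) := by
    rw [map_mul, map_pow, hfy, hf₁, Units.val_mul, Units.val_pow_eq_pow_val]
  have hΦ₂ : tbPhiF 𝔓 (N' * q) H (t2wLev 𝔓 H N' q h fy * f₂ ^ su.m)
      = ((Units.map ((t2w Qb N' q h :
            ↥(modularFunctionFieldBar (N' * q)) ≃ₐ[Qb] ↥(modularFunctionFieldBar (N' * q))) :
            ↥(modularFunctionFieldBar (N' * q)) →* ↥(modularFunctionFieldBar (N' * q))) y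
              * S₂ ^ su.m : (↥(modularFunctionFieldBar (N' * q)))ˣ) :
          ↥(modularFunctionFieldBar (N' * q))) := by
    rw [map_mul, map_pow, tbPhiF_t2wLev, hfy, hf₂, Units.val_mul, Units.val_pow_eq_pow_val]
    rfl
  have hrep₁' : TkrRep 𝔓.P ((tbPhiF 𝔓 (N' * q) H (fy * f₁ ^ su.m) :
      ↥(modularFunctionFieldBar (N' * q))) : LaurentSeries Qb) a₁ b₁ := by
    rw [hΦ₁]; exact hrep₁
  have hrep₂' : TkrRep 𝔓.P ((tbPhiF 𝔓 (N' * q) H (t2wLev 𝔓 H N' q h fy * f₂ ^ su.m) :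
      ↥(modularFunctionFieldBar (N' * q))) : LaurentSeries Qb) a₂ b₂ := by
    rw [hΦ₂]; exact hrep₂
  have hG₁ : TbGauss (tbFixO 𝔓 H) (tbFixRes 𝔓 H)
      ((fy * f₁ ^ su.m : ↥(tbLevF 𝔓 (N' * q) H)) : LaurentSeries ↥(tbFix 𝔓 H)) :=
    t2fg_gauss_descend 𝔓 (N' * q) H (t2ft_hnorm 𝔓 N' h H) _ ⟨a₁, b₁, hb₁, hrep₁'⟩
  have hG₂ : TbGauss (tbFixO 𝔓 H) (tbFixRes 𝔓 H)
      ((t2wLev 𝔓 H N' q h fy * f₂ ^ su.m : ↥(tbLevF 𝔓 (N' * q) H)) :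
        LaurentSeries ↥(tbFix 𝔓 H)) :=
    t2fg_gauss_descend 𝔓 (N' * q) H (t2ft_hnorm 𝔓 N' h H) _ ⟨a₂, b₂, hb₂, hrep₂'⟩
  have hρ₁ := t2fg_rho_descend 𝔓 (N' * q) H hG₁ hb₁ hab₁ hrep₁'
  have hρ₂ := t2fg_rho_descend 𝔓 (N' * q) H hG₂ hb₂ hab₂ hrep₂'
  exact ihbf_main 𝔓 N' h H φ hφ hF su ι hQ₀ hx hn hc hSW hBL hy fy f₁ f₂ hfy hf₁0 hf₂0
    hG₁ hρ₁ hG₂ hρ₂

/-- **(B4): the unsquared Frobenius relation on the toric part, at all levels** -/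
theorem ihbf_all : IhbfAll :=
  ihbf_all_of_good (ihbf_good_of_export ihbf_export)

end

end Fermat.Agent.Ihara
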